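/-
Program L, chapter (I2), plan C (helper18), brick PD-G: flows of closed words.

`X` a finite set with two permutations `σ` (`σ² = 1`), `τ` (`τ³ = 1`), connected under words in
`σ, τ, τ⁻¹` from a base point `x₀`.  The flow `fl x w : X → ℤ` of a word `w` started at `x` adds
`δ_y - δ_{σ y}` for each `σ`-step taken at `y`.  THEOREM: every `u : X → ℤ` with `u ∘ σ = -u` and
`u + u ∘ τ + u ∘ τ² = 0` (a Kirchhoff flow on the graph of `σ`- and `τ`-orbits) is the flow of a
closed word at `x₀`.  Pure algebra, no denominators.  (Mathlib only.)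
-/
import Mathlib

set_option autoImplicit false
set_option linter.unusedSectionVars false

namespace Fermat.Agent.ES.PD.Flow18

/-- the three letters `σ`, `τ`, `τ⁻¹`. -/
inductive Letter : Type
  | s : Letter
  | t : Letter
  | ti : Letter
  deriving DecidableEq

/-- the inverse letter. -/
def Letter.inv : Letter → Letter
  | .s => .s
  | .t => .ti
  | .ti => .t

variable {X : Type*} (σ τ : Equiv.Perm X)

/-- the permutation of a letter. -/
def act : Letter → Equiv.Perm X
  | .s => σ
  | .t => τ
  | .ti => τ⁻¹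

/-- the end point of a word started at `x`. -/
def endpt (x : X) : List Letter → X
  | [] => x
  | l :: w => endpt (act σ τ l x) w

variable [DecidableEq X]

/-- the elementary flow across the `σ`-edge at `x`. -/
def eps (x : X) : X → ℤ := Pi.single x 1 - Pi.single (σ x) 1

/-- the flow of a letter at `x`. -/
def flLetter (x : X) : Letter → (X → ℤ)
  | .s => eps σ x
  | .t => 0
  | .ti => 0

/-- the flow of a word started at `x`. -/
def fl (x : X) : List Letter → (X → ℤ)
  | [] => 0
  | l :: w => flLetter σ x l + fl (act σ τ l x) w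

/-- the reversed word. -/
def rev (w : List Letter) : List Letter := (w.map Letter.inv).reverse

lemma endpt_append (x : X) (w w' : List Letter) :
    endpt σ τ x (w ++ w') = endpt σ τ (endpt σ τ x w) w' := by
  induction w generalizing x with
  | nil => rfl
  | cons l w ih => exact ih _

lemma fl_append (x : X) (w w' : List Letter) :
    fl σ τ x (w ++ w') = fl σ τ x w + fl σ τ (endpt σ τ x w) w' := by
  induction w generalizing x with
  | nil => simp [fl, endpt]
  | cons l w ih =>
    show flLetter σ x l + fl σ τ (act σ τ l x) (w ++ w') = _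
    rw [ih]
    show _ = flLetter σ x l + fl σ τ (act σ τ l x) w + _
    rw [add_assoc]
    rfl

section Rev

variable (hσ : ∀ x, σ (σ x) = x)
include hσ

lemma act_inv_act (l : Letter) (x : X) : act σ τ l.inv (act σ τ l x) = x := by
  cases l
  · exact hσ x
  · show τ⁻¹ (τ x) = x
    simp
  · show τ (τ⁻¹ x) = x
    simp

lemma eps_sigma (x : X) : eps σ (σ x) = - eps σ x := by
  simp only [eps, hσ x]
  ring

lemma flLetter_inv (l : Letter) (x : X) :
    flLetter σ (act σ τ l x) l.inv = - flLetter σ x l := by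
  cases l
  · exact eps_sigma σ hσ x
  · simp [flLetter, Letter.inv]
  · simp [flLetter, Letter.inv]

lemma endpt_rev (x : X) (w : List Letter) : endpt σ τ (endpt σ τ x w) (rev w) = x := by
  induction w generalizing x with
  | nil => rfl
  | cons l w ih =>
    show endpt σ τ (endpt σ τ (act σ τ l x) w) (rev (l :: w)) = x
    have : rev (l :: w) = rev w ++ [l.inv] := by simp [rev]
    rw [this, endpt_append, ih]
    exact act_inv_act σ τ hσ l x

lemma fl_rev (x : X) (w : List Letter) : fl σ τ (endpt σ τ x w) (rev w) = - fl σ τ x w := by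
  induction w generalizing x with
  | nil => simp [fl, rev, endpt]
  | cons l w ih =>
    show fl σ τ (endpt σ τ (act σ τ l x) w) (rev (l :: w)) = - (flLetter σ x l + fl σ τ (act σ τ l x) w)
    have : rev (l :: w) = rev w ++ [l.inv] := by simp [rev]
    rw [this, fl_append, ih, endpt_rev σ τ hσ]
    show -fl σ τ (act σ τ l x) w + (flLetter σ (act σ τ l x) l.inv + 0) = _
    rw [flLetter_inv σ τ hσ]
    ring

/-- flows of closed words at `x₀` form a subgroup. -/
def W (x₀ : X) : AddSubgroup (X → ℤ) where
  carrier := {f | ∃ w : List Letter, endpt σ τ x₀ w = x₀ ∧ fl σ τ x₀ w = f}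
  zero_mem' := ⟨[], rfl, rfl⟩
  add_mem' := by
    rintro f g ⟨w, hw, rfl⟩ ⟨w', hw', rfl⟩
    refine ⟨w ++ w', ?_, ?_⟩
    · rw [endpt_append, hw, hw']
    · rw [fl_append, hw]
  neg_mem' := by
    rintro f ⟨w, hw, rfl⟩
    refine ⟨rev w, ?_, ?_⟩
    · have := endpt_rev σ τ hσ x₀ w
      rw [hw] at this
      exact this
    · have := fl_rev σ τ hσ x₀ w
      rw [hw] at this
      exact this

lemma mem_W {x₀ : X} {f : X → ℤ} :
    f ∈ W σ τ hσ x₀ ↔ ∃ w : List Letter, endpt σ τ x₀ w = x₀ ∧ fl σ τ x₀ w = f := Iff.rfl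

end Rev

section Kirchhoff

variable [Fintype X]

omit [DecidableEq X] in
/-- orbit sums for an involution, without dividing by `2`. -/
lemma sum_smul_eq_zero_of_invol (hσ : ∀ x, σ (σ x) = x) {M : Type*} [AddCommGroup M]
    (n : X → M) (hn : ∀ x, n (σ x) = n x) (u : X → ℤ) (h1 : ∀ x, u (σ x) = - u x) :
    ∑ x, u x • n x = 0 := by
  classical
  let e : X → ℕ := fun x => (Fintype.equivFin X x : ℕ)
  have he : Function.Injective e := Fin.val_injective.comp (Fintype.equivFin X).injective
  let c : X → ℤ := fun x => if e x < e (σ x) then 1 else 0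
  have hc : ∀ x, (c x + c (σ x)) * u x = u x := by
    intro x
    by_cases hx : σ x = x
    · have : u x = 0 := by have := h1 x; rw [hx] at this; omega
      rw [this, mul_zero]
    · have hne : e (σ x) ≠ e x := fun h => hx (he h)
      have : c x + c (σ x) = 1 := by
        simp only [c, hσ x]
        split_ifs <;> omega
      rw [this, one_mul]
  have e1 : ∑ x, u x • n x = ∑ x, (c x * u x) • n x + ∑ x, (c (σ x) * u x) • n x := by
    rw [← Finset.sum_add_distrib]
    refine Finset.sum_congr rfl fun x _ => ?_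
    rw [← add_smul, ← add_mul, hc]
  have e2 : ∑ x, (c (σ x) * u x) • n x = ∑ x, (c x * u (σ x)) • n x := by
    rw [← Equiv.sum_comp σ (fun x => (c x * u (σ x)) • n x)]
    refine Finset.sum_congr rfl fun x _ => ?_
    rw [hσ x, hn x]
  rw [e1, e2, ← Finset.sum_add_distrib]
  refine Finset.sum_eq_zero fun x _ => ?_
  rw [← add_smul, h1 x, mul_neg, add_neg_cancel, zero_smul]

omit [DecidableEq X] in
/-- orbit sums for a permutation of order `3`, without dividing by `3`. -/
lemma sum_smul_eq_zero_of_order3 (hτ : ∀ x, τ (τ (τ x)) = x) {M : Type*} [AddCommGroup M]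
    (m : X → M) (hm : ∀ x, m (τ x) = m x) (u : X → ℤ)
    (h2 : ∀ x, u x + u (τ x) + u (τ (τ x)) = 0) :
    ∑ x, u x • m x = 0 := by
  classical
  let e : X → ℕ := fun x => (Fintype.equivFin X x : ℕ)
  have he : Function.Injective e := Fin.val_injective.comp (Fintype.equivFin X).injective
  let c : X → ℤ := fun x => if e x ≤ e (τ x) ∧ e x ≤ e (τ (τ x)) then 1 else 0
  have hc : ∀ x, (c x + c (τ x) + c (τ (τ x))) * u x = u x := by
    intro x
    by_cases hx : τ x = x
    · have : u x = 0 := by have := h2 x; rw [hx, hx] at this; omega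
      rw [this, mul_zero]
    · have hne1 : e (τ x) ≠ e x := fun h => hx (he h)
      have hne2 : e (τ (τ x)) ≠ e (τ x) := fun h => hx (τ.injective (he h))
      have hne3 : e (τ (τ x)) ≠ e x := fun h => hx (by
        have h3 := he h
        have := congrArg τ h3
        rw [hτ x] at this
        exact this.symm)
      have : c x + c (τ x) + c (τ (τ x)) = 1 := by
        simp only [c, hτ x]
        split_ifs <;> omega
      rw [this, one_mul]
  have e1 : ∑ x, u x • m x = ∑ x, (c x * u x) • m x + ∑ x, (c (τ x) * u x) • m x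
      + ∑ x, (c (τ (τ x)) * u x) • m x := by
    rw [← Finset.sum_add_distrib, ← Finset.sum_add_distrib]
    refine Finset.sum_congr rfl fun x _ => ?_
    rw [← add_smul, ← add_smul, ← add_mul, ← add_mul, hc]
  have e2 : ∑ x, (c (τ x) * u x) • m x = ∑ x, (c x * u (τ (τ x))) • m x := by
    rw [← Equiv.sum_comp τ (fun x => (c x * u (τ (τ x))) • m x)]
    refine Finset.sum_congr rfl fun x _ => ?_
    rw [hτ x, hm x]
  have e3 : ∑ x, (c (τ (τ x)) * u x) • m x = ∑ x, (c x * u (τ x)) • m x := by
    rw [← Equiv.sum_comp (τ.trans τ) (fun x => (c x * u (τ x)) • m x)]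
    refine Finset.sum_congr rfl fun x _ => ?_
    show _ = (c (τ (τ x)) * u (τ (τ (τ x)))) • m (τ (τ x))
    rw [hτ x, hm, hm x]
  rw [e1, e2, e3, ← Finset.sum_add_distrib, ← Finset.sum_add_distrib]
  refine Finset.sum_eq_zero fun x _ => ?_
  rw [← add_smul, ← add_smul, ← mul_add, ← mul_add]
  have : u x + u (τ (τ x)) + u (τ x) = 0 := by have := h2 x; omega
  rw [this, mul_zero, zero_smul]

/-- the abstract form: an additive map `π` killing "potential differences" kills all Kirchhoff
flows. -/
lemma map_eq_zero_of_potential (hσ : ∀ x, σ (σ x) = x) (hτ : ∀ x, τ (τ (τ x)) = x)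
    {M : Type*} [AddCommGroup M] (π : (X → ℤ) →+ M) (m : X → M)
    (hmσ : ∀ x, π (eps σ x) = m (σ x) - m x) (hmτ : ∀ x, m (τ x) = m x)
    (u : X → ℤ) (h1 : ∀ x, u (σ x) = - u x) (h2 : ∀ x, u x + u (τ x) + u (τ (τ x)) = 0) :
    π u = 0 := by
  have hu : u = ∑ x, u x • (Pi.single x (1 : ℤ) : X → ℤ) := by
    conv_lhs => rw [← Finset.univ_sum_single u]
    refine Finset.sum_congr rfl fun x _ => ?_
    rw [← Pi.single_smul, smul_eq_mul, mul_one]
  let d : X → M := fun x => π (Pi.single x (1 : ℤ))
  have hd : ∀ x, d x + m x = d (σ x) + m (σ x) := by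
    intro x
    have := hmσ x
    simp only [eps, map_sub] at this
    show π _ + m x = π _ + m (σ x)
    rw [sub_eq_sub_iff_add_eq_add] at this
    rw [add_comm (π (Pi.single (σ x) 1)), ← this]
  have e1 : π u = ∑ x, u x • d x := by
    conv_lhs => rw [hu]
    rw [map_sum]
    refine Finset.sum_congr rfl fun x _ => ?_
    rw [map_zsmul]
  have e2 : ∑ x, u x • d x = ∑ x, u x • (d x + m x) - ∑ x, u x • m x := by
    rw [← Finset.sum_sub_distrib]
    refine Finset.sum_congr rfl fun x _ => ?_
    rw [smul_add, add_sub_cancel_right]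
  rw [e1, e2, sum_smul_eq_zero_of_invol σ hσ (fun x => d x + m x) (fun x => (hd x).symm) u h1,
    sum_smul_eq_zero_of_order3 τ hτ m hmτ u h2, sub_zero]

/-- **Kirchhoff flows are flows of closed words.** -/
theorem kirchhoff_mem (hσ : ∀ x, σ (σ x) = x) (hτ : ∀ x, τ (τ (τ x)) = x) (x₀ : X)
    (hconn : ∀ x, ∃ w : List Letter, endpt σ τ x₀ w = x)
    (u : X → ℤ) (h1 : ∀ x, u (σ x) = - u x) (h2 : ∀ x, u x + u (τ x) + u (τ (τ x)) = 0) :
    u ∈ W σ τ hσ x₀ := by
  choose p hp using hconn
  let π : (X → ℤ) →+ (X → ℤ) ⧸ W σ τ hσ x₀ := QuotientAddGroup.mk' _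
  let m : X → (X → ℤ) ⧸ W σ τ hσ x₀ := fun x => π (fl σ τ x₀ (p x))
  have hstep : ∀ (x : X) (l : Letter), m (act σ τ l x) = m x + π (flLetter σ x l) := by
    intro x l
    have hmem : fl σ τ x₀ (p x) + flLetter σ x l - fl σ τ x₀ (p (act σ τ l x)) ∈ W σ τ hσ x₀ := by
      refine ⟨p x ++ ([l] ++ rev (p (act σ τ l x))), ?_, ?_⟩
      · rw [endpt_append, hp, endpt_append]
        show endpt σ τ (act σ τ l x) (rev (p (act σ τ l x))) = x₀
        have := endpt_rev σ τ hσ x₀ (p (act σ τ l x))
        rw [hp] at this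
        exact this
      · rw [fl_append, hp, fl_append]
        show _ + (flLetter σ x l + 0 + fl σ τ (act σ τ l x) (rev (p (act σ τ l x)))) = _
        have := fl_rev σ τ hσ x₀ (p (act σ τ l x))
        rw [hp] at this
        rw [this]
        abel
    have h0 : π (fl σ τ x₀ (p x) + flLetter σ x l - fl σ τ x₀ (p (act σ τ l x))) = 0 :=
      (QuotientAddGroup.eq_zero_iff _).mpr hmem
    rw [map_sub, map_add, sub_eq_zero] at h0
    exact h0.symm
  have hπ : π u = 0 := by
    refine map_eq_zero_of_potential σ τ hσ hτ π m ?_ ?_ u h1 h2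
    · intro x
      have := hstep x Letter.s
      show π (flLetter σ x Letter.s) = m (act σ τ Letter.s x) - m x
      rw [this]
      abel
    · intro x
      have := hstep x Letter.t
      show m (act σ τ Letter.t x) = m x
      rw [this]
      show m x + π 0 = m x
      rw [map_zero, add_zero]
  exact (QuotientAddGroup.eq_zero_iff _).mp hπ

end Kirchhoff

end Fermat.Agent.ES.PD.Flow18
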