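/-
Program L, chapter (I2), plan C (helper18), brick PD-B: the side function of an oriented geodesic
between two cusps.

For integer vectors `v = (p, q)`, `v' = (r, s)` and `w : ℂ`:
`dd v w = q w - p`, `Qf v v' w = - Re (dd v' w * conj (dd v w))` (vanishes exactly on the geodesic from
the cusp `p/q` to the cusp `r/s`), `det2 v v' = p s - q r`, and
`F v v' z = sign (det2 v v') * sign (Qf v v' z) ∈ {-1, 0, 1}` is the side of the oriented geodesic.
`F` is invariant under `SL(2,ℤ)` acting diagonally, under the scaling `diag(m,1)`, under integer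
rescaling of `v`, `v'`, and antisymmetric.  (Mathlib only.)
-/
import Mathlib

set_option autoImplicit false

open Matrix MatrixGroups UpperHalfPlane ComplexConjugate

namespace Fermat.Agent.ES.PD.SideFn18

/-- `dd v w = v 1 * w - v 0` (`= det ((w,1), v)`). -/
def dd (v : Fin 2 → ℤ) (w : ℂ) : ℂ := (v 1 : ℂ) * w - (v 0 : ℂ)

/-- the determinant of the pair `(v, v')`. -/
def det2 (v v' : Fin 2 → ℤ) : ℤ := v 0 * v' 1 - v 1 * v' 0

/-- the quadratic form vanishing on the geodesic from the cusp of `v` to the cusp of `v'`. -/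
def Qf (v v' : Fin 2 → ℤ) (w : ℂ) : ℝ := -(dd v' w * conj (dd v w)).re

/-- the side function. -/
noncomputable def F (v v' : Fin 2 → ℤ) (z : ℍ) : ℤ :=
  ((SignType.sign (det2 v v') : SignType) : ℤ) * ((SignType.sign (Qf v v' (z : ℂ)) : SignType) : ℤ)

lemma Qf_eq (v v' : Fin 2 → ℤ) (w : ℂ) :
    Qf v v' w = -((v 1 : ℝ) * (v' 1 : ℝ) * Complex.normSq w)
      + ((v 0 : ℝ) * (v' 1 : ℝ) + (v 1 : ℝ) * (v' 0 : ℝ)) * w.re - (v 0 : ℝ) * (v' 0 : ℝ) := by
  simp only [Qf, dd, map_sub, map_mul, map_intCast, Complex.normSq_apply]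
  simp only [Complex.sub_re, Complex.mul_re, Complex.intCast_re, Complex.intCast_im,
    Complex.conj_re, Complex.conj_im, Complex.sub_im, Complex.mul_im]
  ring

/-- the imaginary part of the same product is `- det2 * Im w`. -/
lemma im_dd_mul (v v' : Fin 2 → ℤ) (w : ℂ) :
    (dd v' w * conj (dd v w)).im = -((det2 v v' : ℤ) : ℝ) * w.im := by
  simp only [dd, det2, map_sub, map_mul, map_intCast]
  simp only [Complex.sub_re, Complex.mul_re, Complex.intCast_re, Complex.intCast_im,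
    Complex.conj_re, Complex.conj_im, Complex.sub_im, Complex.mul_im]
  push_cast
  ring

/-- `|dd v' w|² |dd v w|² = Qf² + det2² (Im w)²`. -/
lemma normSq_dd_mul (v v' : Fin 2 → ℤ) (w : ℂ) :
    Complex.normSq (dd v' w) * Complex.normSq (dd v w)
      = (Qf v v' w) ^ 2 + (((det2 v v' : ℤ) : ℝ) * w.im) ^ 2 := by
  have h : Complex.normSq (dd v' w * conj (dd v w))
      = (dd v' w * conj (dd v w)).re ^ 2 + (dd v' w * conj (dd v w)).im ^ 2 := by
    rw [Complex.normSq_apply]; ring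
  rw [map_mul, Complex.normSq_conj] at h
  rw [h, im_dd_mul, Qf]
  ring

lemma Qf_swap (v v' : Fin 2 → ℤ) (w : ℂ) : Qf v' v w = Qf v v' w := by
  rw [Qf_eq, Qf_eq]; ring

lemma det2_swap (v v' : Fin 2 → ℤ) : det2 v' v = - det2 v v' := by
  simp only [det2]; ring

lemma F_swap (v v' : Fin 2 → ℤ) (z : ℍ) : F v' v z = - F v v' z := by
  simp only [F, Qf_swap v v', det2_swap v v', Left.sign_neg]
  rcases SignType.sign (det2 v v') with _ | _ | _ <;> simp

lemma F_self (v : Fin 2 → ℤ) (z : ℍ) : F v v z = 0 := by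
  have : det2 v v = 0 := by simp only [det2]; ring
  simp [F, this]

lemma F_eq_zero_of_det2 {v v' : Fin 2 → ℤ} (h : det2 v v' = 0) (z : ℍ) : F v v' z = 0 := by
  simp [F, h]

/-! ### integer rescaling -/

lemma dd_smul_left (t : ℤ) (v : Fin 2 → ℤ) (w : ℂ) : dd (t • v) w = (t : ℂ) * dd v w := by
  simp only [dd, Pi.smul_apply, smul_eq_mul]; push_cast; ring

lemma Qf_smul_left (t : ℤ) (v v' : Fin 2 → ℤ) (w : ℂ) : Qf (t • v) v' w = (t : ℝ) * Qf v v' w := by
  rw [Qf_eq, Qf_eq]; simp only [Pi.smul_apply, smul_eq_mul]; push_cast; ring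

lemma Qf_smul_right (t : ℤ) (v v' : Fin 2 → ℤ) (w : ℂ) : Qf v (t • v') w = (t : ℝ) * Qf v v' w := by
  rw [Qf_eq, Qf_eq]; simp only [Pi.smul_apply, smul_eq_mul]; push_cast; ring

lemma det2_smul_left (t : ℤ) (v v' : Fin 2 → ℤ) : det2 (t • v) v' = t * det2 v v' := by
  simp only [det2, Pi.smul_apply, smul_eq_mul]; ring

lemma det2_smul_right (t : ℤ) (v v' : Fin 2 → ℤ) : det2 v (t • v') = t * det2 v v' := by
  simp only [det2, Pi.smul_apply, smul_eq_mul]; ring

private lemma sign_mul_sign_cast (t : ℤ) (ht : t ≠ 0) (a : ℤ) (b : ℝ) :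
    ((SignType.sign (t * a) : SignType) : ℤ) * ((SignType.sign ((t : ℝ) * b) : SignType) : ℤ)
      = ((SignType.sign a : SignType) : ℤ) * ((SignType.sign b : SignType) : ℤ) := by
  rw [sign_mul, sign_mul]
  have h1 : (SignType.sign (t : ℝ)) = SignType.sign t := by
    rcases lt_trichotomy t 0 with h | h | h
    · rw [sign_neg h, sign_neg (by exact_mod_cast h)]
    · exact absurd h ht
    · rw [sign_pos h, sign_pos (by exact_mod_cast h)]
  rw [h1]
  rcases lt_trichotomy t 0 with h | h | h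
  · rw [sign_neg h]; push_cast; simp
  · exact absurd h ht
  · rw [sign_pos h]; push_cast; simp

lemma F_smul_left (t : ℤ) (ht : t ≠ 0) (v v' : Fin 2 → ℤ) (z : ℍ) : F (t • v) v' z = F v v' z := by
  simp only [F, det2_smul_left, Qf_smul_left]
  exact sign_mul_sign_cast t ht _ _

lemma F_smul_right (t : ℤ) (ht : t ≠ 0) (v v' : Fin 2 → ℤ) (z : ℍ) : F v (t • v') z = F v v' z := by
  simp only [F, det2_smul_right, Qf_smul_right]
  exact sign_mul_sign_cast t ht _ _

lemma F_neg_left (v v' : Fin 2 → ℤ) (z : ℍ) : F (-v) v' z = F v v' z := by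
  have := F_smul_left (-1) (by norm_num) v v' z
  simpa using this

lemma F_neg_right (v v' : Fin 2 → ℤ) (z : ℍ) : F v (-v') z = F v v' z := by
  have := F_smul_right (-1) (by norm_num) v v' z
  simpa using this

/-! ### `SL(2,ℤ)`-equivariance -/

lemma smul_vec_zero (g : SL(2,ℤ)) (v : Fin 2 → ℤ) : (g • v) 0 = g 0 0 * v 0 + g 0 1 * v 1 := by
  rw [Matrix.SpecialLinearGroup.smul_def]
  simp [Matrix.smul_eq_mulVec, Matrix.mulVec, dotProduct, Fin.sum_univ_two]

lemma smul_vec_one (g : SL(2,ℤ)) (v : Fin 2 → ℤ) : (g • v) 1 = g 1 0 * v 0 + g 1 1 * v 1 := by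
  rw [Matrix.SpecialLinearGroup.smul_def]
  simp [Matrix.smul_eq_mulVec, Matrix.mulVec, dotProduct, Fin.sum_univ_two]

lemma det_eq_one' (g : SL(2,ℤ)) : g 0 0 * g 1 1 - g 0 1 * g 1 0 = 1 := by
  have := g.det_coe
  rw [Matrix.det_fin_two] at this
  exact this

lemma coe_smul' (g : SL(2,ℤ)) (z : ℍ) :
    ((g • z : ℍ) : ℂ) = ((g 0 0 : ℂ) * z + (g 0 1 : ℂ)) / ((g 1 0 : ℂ) * z + (g 1 1 : ℂ)) := by
  rw [UpperHalfPlane.coe_specialLinearGroup_apply]
  simp

/-- the denominator `c z + d`. -/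
def den (g : SL(2,ℤ)) (z : ℍ) : ℂ := (g 1 0 : ℂ) * z + (g 1 1 : ℂ)

lemma den_ne_zero (g : SL(2,ℤ)) (z : ℍ) : den g z ≠ 0 := by
  have := UpperHalfPlane.denom_ne_zero (g : GL (Fin 2) ℝ) z
  simpa [den, UpperHalfPlane.denom] using this

lemma dd_smul (g : SL(2,ℤ)) (v : Fin 2 → ℤ) (z : ℍ) :
    dd (g • v) ((g • z : ℍ) : ℂ) = dd v z / den g z := by
  have hd := den_ne_zero g z
  have hdet : ((g 0 0 : ℤ) : ℂ) * (g 1 1 : ℂ) - (g 0 1 : ℂ) * (g 1 0 : ℂ) = 1 := by
    have := det_eq_one' g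
    exact_mod_cast this
  rw [coe_smul', dd, dd, smul_vec_zero, smul_vec_one, eq_div_iff hd]
  unfold den at hd ⊢
  push_cast
  field_simp
  linear_combination ((v 1 : ℂ) * (z : ℂ) - (v 0 : ℂ)) * hdet

lemma det2_smul (g : SL(2,ℤ)) (v v' : Fin 2 → ℤ) : det2 (g • v) (g • v') = det2 v v' := by
  simp only [det2, smul_vec_zero, smul_vec_one]
  linear_combination (v 0 * v' 1 - v 1 * v' 0) * det_eq_one' g

lemma Qf_smul (g : SL(2,ℤ)) (v v' : Fin 2 → ℤ) (z : ℍ) :
    Qf (g • v) (g • v') ((g • z : ℍ) : ℂ) = Qf v v' z / Complex.normSq (den g z) := by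
  have hd := den_ne_zero g z
  have hn : Complex.normSq (den g z) ≠ 0 := by
    rwa [ne_eq, Complex.normSq_eq_zero]
  simp only [Qf, dd_smul]
  rw [map_div₀, div_mul_div_comm, Complex.mul_conj, Complex.div_ofReal_re]
  ring

/-- **`SL(2,ℤ)`-equivariance of the side function.** -/
theorem F_smul (g : SL(2,ℤ)) (v v' : Fin 2 → ℤ) (z : ℍ) :
    F (g • v) (g • v') (g • z) = F v v' z := by
  have hn : 0 < Complex.normSq (den g z) := Complex.normSq_pos.mpr (den_ne_zero g z)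
  simp only [F, det2_smul, Qf_smul]
  rw [div_eq_mul_inv, sign_mul, sign_pos (inv_pos.mpr hn)]
  simp

/-- the form used for re-indexing: `F v v' (ε • z) = F (ε⁻¹ • v) (ε⁻¹ • v') z`. -/
theorem F_smul_point (ε : SL(2,ℤ)) (v v' : Fin 2 → ℤ) (z : ℍ) :
    F v v' (ε • z) = F (ε⁻¹ • v) (ε⁻¹ • v') z := by
  have := F_smul ε (ε⁻¹ • v) (ε⁻¹ • v') z
  rw [smul_inv_smul, smul_inv_smul] at this
  exact this

/-! ### the scaling `diag(m,1)` -/

/-- `z ↦ m z` on `ℍ`. -/
def scaleH (m : ℕ) (hm : 0 < m) (z : ℍ) : ℍ :=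
  ⟨(m : ℂ) * z, by
    have : (0:ℝ) < m := by exact_mod_cast hm
    simpa using mul_pos this z.im_pos⟩

lemma coe_scaleH (m : ℕ) (hm : 0 < m) (z : ℍ) : ((scaleH m hm z : ℍ) : ℂ) = (m : ℂ) * z := rfl

/-- `diag(m,1)` on vectors. -/
def scaleV (m : ℕ) (v : Fin 2 → ℤ) : Fin 2 → ℤ := ![(m : ℤ) * v 0, v 1]

lemma dd_scale (m : ℕ) (hm : 0 < m) (v : Fin 2 → ℤ) (z : ℍ) :
    dd (scaleV m v) ((scaleH m hm z : ℍ) : ℂ) = (m : ℂ) * dd v z := by
  simp only [dd, scaleV, coe_scaleH, Matrix.cons_val_zero, Matrix.cons_val_one]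
  push_cast
  ring

lemma det2_scale (m : ℕ) (v v' : Fin 2 → ℤ) : det2 (scaleV m v) (scaleV m v') = m * det2 v v' := by
  simp only [det2, scaleV, Matrix.cons_val_zero, Matrix.cons_val_one]
  ring

lemma Qf_scale (m : ℕ) (hm : 0 < m) (v v' : Fin 2 → ℤ) (z : ℍ) :
    Qf (scaleV m v) (scaleV m v') ((scaleH m hm z : ℍ) : ℂ) = (m : ℝ) ^ 2 * Qf v v' z := by
  simp only [Qf, dd_scale, map_mul, Complex.conj_natCast]
  have : (m : ℂ) * dd v' z * ((m : ℂ) * conj (dd v z))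
      = (((m : ℝ) ^ 2 : ℝ) : ℂ) * (dd v' z * conj (dd v z)) := by
    push_cast; ring
  rw [this, Complex.re_ofReal_mul]
  ring

theorem F_scale (m : ℕ) (hm : 0 < m) (v v' : Fin 2 → ℤ) (z : ℍ) :
    F (scaleV m v) (scaleV m v') (scaleH m hm z) = F v v' z := by
  have hm' : (0 : ℝ) < (m : ℝ) ^ 2 := by positivity
  have hm'' : (0 : ℤ) < (m : ℤ) := by exact_mod_cast hm
  simp only [F, det2_scale, Qf_scale]
  rw [sign_mul, sign_mul, sign_pos hm', sign_pos hm'']
  simp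


end Fermat.Agent.ES.PD.SideFn18
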