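/-
Program L, chapter (I2), plan C (helper18), brick PD-A: the formal calculus of "tame orbit sums".

`Γ` a group acting on a type `Z`, `f : Z → ℤ`.  `f` is *tame* if for all `z z'` only finitely many
`ε : Γ` have `f (ε • z') ≠ f (ε • z)`.  Then `D f z z' := ∑ᶠ ε, (f (ε • z') - f (ε • z))` is additive
along paths, `Γ`-invariant, `γ ↦ D f z₀ (γ • z₀)` is a homomorphism independent of `z₀`, it vanishes
when `f` has finite orbit sums, and it decomposes along the cosets of a subgroup.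
(Mathlib only.)
-/
import Mathlib

set_option autoImplicit false

open Function

namespace Fermat.Agent.ES.PD.TameSum18

variable {Γ : Type*} [Group Γ] {Z : Type*} [MulAction Γ Z]

/-- only finitely many translates distinguish `z` and `z'`. -/
def Tame (Γ : Type*) [Group Γ] {Z : Type*} [MulAction Γ Z] (f : Z → ℤ) : Prop :=
  ∀ z z' : Z, {ε : Γ | f (ε • z') ≠ f (ε • z)}.Finite

/-- the regularised difference of orbit sums. -/
noncomputable def D (Γ : Type*) [Group Γ] {Z : Type*} [MulAction Γ Z] (f : Z → ℤ) (z z' : Z) : ℤ :=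
  ∑ᶠ ε : Γ, (f (ε • z') - f (ε • z))

lemma Tame.hasFiniteSupport {f : Z → ℤ} (hf : Tame Γ f) (z z' : Z) :
    (Function.support fun ε : Γ => f (ε • z') - f (ε • z)).Finite := by
  refine (hf z z').subset ?_
  intro ε hε
  simp only [Function.mem_support, ne_eq, sub_eq_zero] at hε
  exact hε

lemma D_self (f : Z → ℤ) (z : Z) : D Γ f z z = 0 := by
  simp [D]

lemma D_add_path {f : Z → ℤ} (hf : Tame Γ f) (z z' z'' : Z) :
    D Γ f z z'' = D Γ f z z' + D Γ f z' z'' := by
  unfold D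
  rw [← finsum_add_distrib (hf.hasFiniteSupport z z') (hf.hasFiniteSupport z' z'')]
  congr 1
  funext ε
  ring

lemma D_symm {f : Z → ℤ} (hf : Tame Γ f) (z z' : Z) : D Γ f z' z = - D Γ f z z' := by
  have h := D_add_path hf z z' z
  rw [D_self] at h
  linarith

lemma D_smul (f : Z → ℤ) (γ : Γ) (z z' : Z) : D Γ f (γ • z) (γ • z') = D Γ f z z' := by
  unfold D
  rw [← finsum_comp_equiv (Equiv.mulRight γ) (f := fun ε : Γ => f (ε • z') - f (ε • z))]
  congr 1
  funext ε
  simp [mul_smul]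

/-- the homomorphism property. -/
lemma D_mul {f : Z → ℤ} (hf : Tame Γ f) (z₀ : Z) (γ δ : Γ) :
    D Γ f z₀ ((γ * δ) • z₀) = D Γ f z₀ (γ • z₀) + D Γ f z₀ (δ • z₀) := by
  rw [D_add_path hf z₀ (γ • z₀) ((γ * δ) • z₀), mul_smul, D_smul]

/-- independence of the base point. -/
lemma D_basepoint {f : Z → ℤ} (hf : Tame Γ f) (z₀ z₁ : Z) (γ : Γ) :
    D Γ f z₁ (γ • z₁) = D Γ f z₀ (γ • z₀) := by
  rw [D_add_path hf z₁ z₀ (γ • z₁), D_add_path hf z₀ (γ • z₀) (γ • z₁), D_smul, D_symm hf z₀ z₁]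
  ring

lemma D_one (f : Z → ℤ) (z₀ : Z) : D Γ f z₀ ((1 : Γ) • z₀) = 0 := by
  rw [one_smul, D_self]

lemma D_inv {f : Z → ℤ} (hf : Tame Γ f) (z₀ : Z) (γ : Γ) :
    D Γ f z₀ (γ⁻¹ • z₀) = - D Γ f z₀ (γ • z₀) := by
  have h := D_mul hf z₀ γ γ⁻¹
  rw [mul_inv_cancel, D_one] at h
  linarith

/-- the homomorphism `γ ↦ D f z₀ (γ • z₀)`. -/
noncomputable def homOf {f : Z → ℤ} (hf : Tame Γ f) (z₀ : Z) : Additive Γ →+ ℤ where
  toFun γ := D Γ f z₀ (Additive.toMul γ • z₀)
  map_zero' := by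
    show D Γ f z₀ ((1 : Γ) • z₀) = 0
    exact D_one f z₀
  map_add' γ δ := by
    show D Γ f z₀ ((Additive.toMul γ * Additive.toMul δ) • z₀) = _
    exact D_mul hf z₀ _ _

lemma homOf_apply {f : Z → ℤ} (hf : Tame Γ f) (z₀ : Z) (γ : Γ) :
    homOf hf z₀ (Additive.ofMul γ) = D Γ f z₀ (γ • z₀) := rfl

/-! ### linearity in `f` -/

lemma Tame.add {f g : Z → ℤ} (hf : Tame Γ f) (hg : Tame Γ g) : Tame Γ (f + g) := by
  intro z z'
  refine ((hf z z').union (hg z z')).subset ?_
  intro ε hε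
  simp only [Set.mem_ofPred_eq, Pi.add_apply, ne_eq] at hε
  by_contra hcon
  simp only [Set.mem_union, Set.mem_ofPred_eq, not_or, not_not] at hcon
  exact hε (by rw [hcon.1, hcon.2])

lemma Tame.neg {f : Z → ℤ} (hf : Tame Γ f) : Tame Γ (-f) := by
  intro z z'
  refine (hf z z').subset ?_
  intro ε hε
  simp only [Set.mem_ofPred_eq, Pi.neg_apply, ne_eq, neg_inj] at hε
  exact hε

lemma Tame.const (c : ℤ) : Tame Γ (fun _ : Z => c) := by
  intro z z'
  simp

lemma Tame.congr {f g : Z → ℤ} (hf : Tame Γ f) (h : ∀ z, g z = f z) : Tame Γ g := by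
  have : g = f := funext h
  rw [this]; exact hf

lemma D_add_fun {f g : Z → ℤ} (hf : Tame Γ f) (hg : Tame Γ g) (z z' : Z) :
    D Γ (f + g) z z' = D Γ f z z' + D Γ g z z' := by
  unfold D
  rw [← finsum_add_distrib (hf.hasFiniteSupport z z') (hg.hasFiniteSupport z z')]
  congr 1
  funext ε
  simp only [Pi.add_apply]
  ring

lemma D_neg_fun (f : Z → ℤ) (z z' : Z) : D Γ (-f) z z' = - D Γ f z z' := by
  unfold D
  rw [← finsum_neg_distrib]
  congr 1
  funext ε
  simp only [Pi.neg_apply]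
  ring

lemma D_const (c : ℤ) (z z' : Z) : D Γ (fun _ : Z => c) z z' = 0 := by
  simp [D]

lemma D_congr {f g : Z → ℤ} (h : ∀ z, g z = f z) (z z' : Z) : D Γ g z z' = D Γ f z z' := by
  have : g = f := funext h
  rw [this]

/-! ### the vanishing principle -/

/-- `f` has finite orbit sums. -/
def OrbitFinite (Γ : Type*) [Group Γ] {Z : Type*} [MulAction Γ Z] (f : Z → ℤ) : Prop :=
  ∀ z : Z, {ε : Γ | f (ε • z) ≠ 0}.Finite

lemma OrbitFinite.tame {f : Z → ℤ} (hf : OrbitFinite Γ f) : Tame Γ f := by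
  intro z z'
  refine ((hf z).union (hf z')).subset ?_
  intro ε hε
  simp only [Set.mem_ofPred_eq, ne_eq] at hε
  by_contra hcon
  simp only [Set.mem_union, Set.mem_ofPred_eq, not_or, not_not] at hcon
  exact hε (by rw [hcon.1, hcon.2])

/-- the orbit sum. -/
noncomputable def S (Γ : Type*) [Group Γ] {Z : Type*} [MulAction Γ Z] (f : Z → ℤ) (z : Z) : ℤ :=
  ∑ᶠ ε : Γ, f (ε • z)

lemma S_smul (f : Z → ℤ) (γ : Γ) (z : Z) : S Γ f (γ • z) = S Γ f z := by
  unfold S
  rw [← finsum_comp_equiv (Equiv.mulRight γ) (f := fun ε : Γ => f (ε • z))]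
  congr 1
  funext ε
  simp [mul_smul]

lemma D_eq_S_sub {f : Z → ℤ} (hf : OrbitFinite Γ f) (z z' : Z) :
    D Γ f z z' = S Γ f z' - S Γ f z := by
  unfold D S
  rw [finsum_sub_distrib]
  · exact (hf z').subset (fun ε hε => by simpa using hε)
  · exact (hf z).subset (fun ε hε => by simpa using hε)

/-- **Vanishing principle.** -/
theorem D_eq_zero_of_orbitFinite {f : Z → ℤ} (hf : OrbitFinite Γ f) (z₀ : Z) (γ : Γ) :
    D Γ f z₀ (γ • z₀) = 0 := by
  rw [D_eq_S_sub hf, S_smul, sub_self]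

/-! ### subgroups and coset decomposition -/

lemma Tame.subgroup {f : Z → ℤ} (hf : Tame Γ f) (H : Subgroup Γ) : Tame H f := by
  intro z z'
  have := (hf z z').preimage (Subtype.val_injective (p := fun x => x ∈ H)).injOn
  refine this.subset ?_
  intro ε hε
  simpa [Subgroup.smul_def] using hε

lemma OrbitFinite.subgroup {f : Z → ℤ} (hf : OrbitFinite Γ f) (H : Subgroup Γ) :
    OrbitFinite H f := by
  intro z
  have := (hf z).preimage (Subtype.val_injective (p := fun x => x ∈ H)).injOn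
  refine this.subset ?_
  intro ε hε
  simpa [Subgroup.smul_def] using hε

/-- decomposition along the right cosets `H t`, `t ∈ T`. -/
theorem D_eq_sum_transversal {f : Z → ℤ} (hf : Tame Γ f) (H : Subgroup Γ) {T : Set Γ}
    (hT : Subgroup.IsComplement (H : Set Γ) T) (z z' : Z) :
    D Γ f z z' = ∑ᶠ t : T, D H f ((t : Γ) • z) ((t : Γ) • z') := by
  unfold D
  obtain ⟨e, he⟩ : ∃ e : (T × H) ≃ Γ, ∀ x : T × H, e x = (x.2 : Γ) * (x.1 : Γ) :=
    ⟨(Equiv.prodComm _ _).trans hT.equiv.symm, fun x => rfl⟩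
  rw [← finsum_comp_equiv e (f := fun ε : Γ => f (ε • z') - f (ε • z))]
  rw [finsum_curry]
  · congr 1
    funext t
    congr 1
    funext h
    rw [he]
    simp only [mul_smul, Subgroup.smul_def]
  · have := (hf.hasFiniteSupport z z').preimage e.injective.injOn
    refine this.subset ?_
    intro x hx
    simpa using hx

end Fermat.Agent.ES.PD.TameSum18
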