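/-
Program L, chapter (I2), plan C (helper18), brick PD-C: tameness (G1) of the side function.

For integer vectors `v, v'` and `z, z' : ℍ`, only finitely many `ε ∈ SL(2,ℤ)` have
`F v v' (ε • z') ≠ F v v' (ε • z)` (only finitely many translates of a geodesic between cusps
separate two points).  (Mathlib + SideFn18 + TameSum18.)
-/
import Mathlib
import Fermat.Agent.ES.PD.TameSum18
import Fermat.Agent.ES.PD.SideFn18

set_option autoImplicit false

open Matrix MatrixGroups UpperHalfPlane ComplexConjugate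

namespace Fermat.Agent.ES.PD.TameF18

open Fermat.Agent.ES.PD.SideFn18 Fermat.Agent.ES.PD.TameSum18

/-- sign change ⇒ `0` lies between. -/
lemma zero_mem_uIcc_of_sign_ne {a b : ℝ} (h : SignType.sign a ≠ SignType.sign b) :
    (0 : ℝ) ∈ Set.uIcc a b := by
  rw [Set.mem_uIcc]
  rcases le_total a 0 with ha | ha <;> rcases le_total b 0 with hb | hb
  · rcases ha.lt_or_eq with ha' | ha'
    · rcases hb.lt_or_eq with hb' | hb'
      · exact absurd (by rw [sign_neg ha', sign_neg hb']) h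
      · left; exact ⟨ha, hb'.ge⟩
    · right; exact ⟨hb, ha'.ge⟩
  · left; exact ⟨ha, hb⟩
  · right; exact ⟨hb, ha⟩
  · rcases ha.lt_or_eq with ha' | ha'
    · rcases hb.lt_or_eq with hb' | hb'
      · exact absurd (by rw [sign_pos ha', sign_pos hb']) h
      · right; exact ⟨hb'.ge, ha⟩
    · left; exact ⟨ha'.ge, hb⟩

lemma continuous_Qf (v v' : Fin 2 → ℤ) : Continuous (Qf v v') := by
  have : Qf v v' = fun w : ℂ => -((v 1 : ℝ) * (v' 1 : ℝ) * Complex.normSq w)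
      + ((v 0 : ℝ) * (v' 1 : ℝ) + (v 1 : ℝ) * (v' 0 : ℝ)) * w.re - (v 0 : ℝ) * (v' 0 : ℝ) := by
    funext w; exact Qf_eq v v' w
  rw [this]
  fun_prop

/-- a sign change of `Qf` between `z` and `z'` gives a zero on the segment. -/
lemma exists_zero_on_segment (v v' : Fin 2 → ℤ) (z z' : ℂ)
    (h : SignType.sign (Qf v v' z) ≠ SignType.sign (Qf v v' z')) :
    ∃ t : ℝ, 0 ≤ t ∧ t ≤ 1 ∧ Qf v v' (z + (t : ℂ) * (z' - z)) = 0 := by
  let φ : ℝ → ℝ := fun t => Qf v v' (z + (t : ℂ) * (z' - z))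
  have hφ : Continuous φ := by
    apply (continuous_Qf v v').comp
    fun_prop
  have h0 : φ 0 = Qf v v' z := by simp [φ]
  have h1 : φ 1 = Qf v v' z' := by simp [φ]
  have hmem : (0 : ℝ) ∈ Set.uIcc (φ 0) (φ 1) := by
    rw [h0, h1]; exact zero_mem_uIcc_of_sign_ne h
  obtain ⟨t, ht, htφ⟩ := intermediate_value_uIcc (a := (0:ℝ)) (b := 1) hφ.continuousOn hmem
  rw [Set.uIcc_of_le zero_le_one, Set.mem_Icc] at ht
  exact ⟨t, ht.1, ht.2, htφ⟩

/-- lower bound for `|q w - p|²`, `(p,q) ≠ 0` integers. -/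
lemma normSq_dd_ge {v : Fin 2 → ℤ} (hv : v ≠ 0) (w : ℂ) (y₀ : ℝ) (hy₀ : 0 < y₀) (hw : y₀ ≤ w.im) :
    min 1 (y₀ ^ 2) ≤ Complex.normSq (dd v w) := by
  have him : (dd v w).im = (v 1 : ℝ) * w.im := by simp [dd]
  have hre : (dd v w).re = (v 1 : ℝ) * w.re - (v 0 : ℝ) := by simp [dd]
  rw [Complex.normSq_apply, him, hre]
  by_cases hq : v 1 = 0
  · have hp : v 0 ≠ 0 := by
      intro hp
      apply hv
      funext i
      fin_cases i <;> simp [hp, hq]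
    have : (1 : ℝ) ≤ (v 0 : ℝ) ^ 2 := by
      have : (1 : ℤ) ≤ (v 0) ^ 2 := by
        have := sq_nonneg (v 0)
        have h2 : (v 0) ^ 2 ≠ 0 := pow_ne_zero 2 hp
        omega
      exact_mod_cast this
    rw [hq]
    simp only [Int.cast_zero, zero_mul, zero_sub, mul_zero, add_zero]
    calc min 1 (y₀ ^ 2) ≤ 1 := min_le_left _ _
      _ ≤ (v 0 : ℝ) ^ 2 := this
      _ = -(v 0 : ℝ) * -(v 0 : ℝ) := by ring
  · have : (1 : ℝ) ≤ (v 1 : ℝ) ^ 2 := by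
      have : (1 : ℤ) ≤ (v 1) ^ 2 := by
        have := sq_nonneg (v 1)
        have h2 : (v 1) ^ 2 ≠ 0 := pow_ne_zero 2 hq
        omega
      exact_mod_cast this
    have hw2 : y₀ ^ 2 ≤ w.im ^ 2 := by
      apply pow_le_pow_left₀ hy₀.le hw
    calc min 1 (y₀ ^ 2) ≤ y₀ ^ 2 := min_le_right _ _
      _ ≤ (v 1 : ℝ) ^ 2 * w.im ^ 2 := by nlinarith [sq_nonneg w.im]
      _ ≤ ((v 1 : ℝ) * w.re - (v 0 : ℝ)) * ((v 1 : ℝ) * w.re - (v 0 : ℝ))
            + (v 1 : ℝ) * w.im * ((v 1 : ℝ) * w.im) := by nlinarith [sq_nonneg ((v 1 : ℝ) * w.re - (v 0 : ℝ))]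

/-- from an upper bound on `|q w - p|²` to bounds on `p`, `q`. -/
lemma coord_sq_le {v : Fin 2 → ℤ} (w : ℂ) (y₀ R M : ℝ) (hy₀ : 0 < y₀) (hw : y₀ ≤ w.im)
    (hR : Complex.normSq w ≤ R) (hM : Complex.normSq (dd v w) ≤ M) (i : Fin 2) :
    ((v i : ℝ)) ^ 2 ≤ 2 * M + (2 * R + 1) * (M / y₀ ^ 2) := by
  have him : (dd v w).im = (v 1 : ℝ) * w.im := by simp [dd]
  have hre : (dd v w).re = (v 1 : ℝ) * w.re - (v 0 : ℝ) := by simp [dd]
  have hns : Complex.normSq (dd v w) = ((v 1 : ℝ) * w.re - (v 0 : ℝ)) ^ 2 + ((v 1 : ℝ) * w.im) ^ 2 := by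
    rw [Complex.normSq_apply, him, hre]; ring
  have hM0 : 0 ≤ M := le_trans (Complex.normSq_nonneg _) hM
  have hy2 : 0 < y₀ ^ 2 := by positivity
  have hq : (v 1 : ℝ) ^ 2 ≤ M / y₀ ^ 2 := by
    rw [le_div_iff₀ hy2]
    have h1 : (v 1 : ℝ) ^ 2 * y₀ ^ 2 ≤ ((v 1 : ℝ) * w.im) ^ 2 := by
      have : y₀ ^ 2 ≤ w.im ^ 2 := pow_le_pow_left₀ hy₀.le hw 2
      nlinarith [sq_nonneg (v 1 : ℝ)]
    nlinarith [sq_nonneg ((v 1 : ℝ) * w.re - (v 0 : ℝ))]
  have hMy : 0 ≤ M / y₀ ^ 2 := div_nonneg hM0 hy2.le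
  have hR0 : 0 ≤ R := le_trans (Complex.normSq_nonneg _) hR
  fin_cases i
  · -- p² ≤ 2 (|qw-p|² + q² |w|²)
    show ((v 0 : ℝ)) ^ 2 ≤ _
    have hwre : w.re ^ 2 ≤ R := by
      have : Complex.normSq w = w.re ^ 2 + w.im ^ 2 := by rw [Complex.normSq_apply]; ring
      nlinarith [sq_nonneg w.im]
    have h1 : ((v 1 : ℝ) * w.re - (v 0 : ℝ)) ^ 2 ≤ M := by
      nlinarith [sq_nonneg ((v 1 : ℝ) * w.im)]
    have h2 : ((v 1 : ℝ) * w.re) ^ 2 ≤ (M / y₀ ^ 2) * R := by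
      rw [mul_pow]
      exact mul_le_mul hq hwre (sq_nonneg _) hMy
    have h3 : (v 0 : ℝ) ^ 2 ≤ 2 * ((v 1 : ℝ) * w.re - (v 0 : ℝ)) ^ 2 + 2 * ((v 1 : ℝ) * w.re) ^ 2 := by
      nlinarith [sq_nonneg ((v 1 : ℝ) * w.re - (v 0 : ℝ) + (v 1 : ℝ) * w.re),
        sq_nonneg ((v 1 : ℝ) * w.re - (v 0 : ℝ) - (v 1 : ℝ) * w.re)]
    nlinarith
  · show ((v 1 : ℝ)) ^ 2 ≤ _
    nlinarith

lemma ne_zero_of_det2_left {v v' : Fin 2 → ℤ} (h : det2 v v' ≠ 0) : v ≠ 0 := by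
  rintro rfl
  apply h
  simp [det2]

lemma ne_zero_of_det2_right {v v' : Fin 2 → ℤ} (h : det2 v v' ≠ 0) : v' ≠ 0 := by
  rintro rfl
  apply h
  simp [det2]

/-- **separation bound**: a geodesic `(v₁, v₂)` of determinant `D` separating `z`, `z'` has bounded
coordinates. -/
lemma coord_bound (z z' : ℍ) (D : ℤ) : ∃ K : ℝ, ∀ v₁ v₂ : Fin 2 → ℤ, det2 v₁ v₂ = D →
    F v₁ v₂ z' ≠ F v₁ v₂ z → ∀ i, (v₁ i : ℝ) ^ 2 ≤ K ∧ (v₂ i : ℝ) ^ 2 ≤ K := by
  set y₀ : ℝ := min z.im z'.im with hy₀def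
  set Y : ℝ := max z.im z'.im with hYdef
  set R : ℝ := (‖(z : ℂ)‖ + ‖(z' : ℂ)‖) ^ 2 with hRdef
  set c2 : ℝ := min 1 (y₀ ^ 2) with hc2def
  set M : ℝ := (D : ℝ) ^ 2 * Y ^ 2 / c2 with hMdef
  have hy₀ : 0 < y₀ := lt_min z.im_pos z'.im_pos
  have hc2 : 0 < c2 := lt_min one_pos (by positivity)
  refine ⟨2 * M + (2 * R + 1) * (M / y₀ ^ 2), ?_⟩
  intro v₁ v₂ hD hF
  have hD0 : D ≠ 0 := by
    rintro rfl
    apply hF
    rw [F_eq_zero_of_det2 hD, F_eq_zero_of_det2 hD]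
  have hdet : det2 v₁ v₂ ≠ 0 := by rw [hD]; exact hD0
  have hsign : SignType.sign (Qf v₁ v₂ (z : ℂ)) ≠ SignType.sign (Qf v₁ v₂ (z' : ℂ)) := by
    intro h
    apply hF
    simp only [F, h]
  obtain ⟨t, ht0, ht1, hQ⟩ := exists_zero_on_segment v₁ v₂ z z' hsign
  set w : ℂ := (z : ℂ) + (t : ℂ) * ((z' : ℂ) - z) with hwdef
  have hwim : w.im = (1 - t) * z.im + t * z'.im := by
    simp only [hwdef, Complex.add_im, Complex.mul_im, Complex.ofReal_re, Complex.ofReal_im,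
      Complex.sub_im, Complex.sub_re, zero_mul, add_zero, UpperHalfPlane.coe_im]
    ring
  have h1t : 0 ≤ 1 - t := by linarith
  have hwlo : y₀ ≤ w.im := by
    rw [hwim]
    have h1 : y₀ ≤ z.im := min_le_left _ _
    have h2 : y₀ ≤ z'.im := min_le_right _ _
    nlinarith
  have hwhi : w.im ≤ Y := by
    rw [hwim]
    have h1 : z.im ≤ Y := le_max_left _ _
    have h2 : z'.im ≤ Y := le_max_right _ _
    nlinarith
  have hwnorm : Complex.normSq w ≤ R := by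
    have hw' : w = ((1 - t : ℝ) : ℂ) * (z : ℂ) + (t : ℂ) * (z' : ℂ) := by
      rw [hwdef]; push_cast; ring
    have : ‖w‖ ≤ ‖(z : ℂ)‖ + ‖(z' : ℂ)‖ := by
      rw [hw']
      calc ‖((1 - t : ℝ) : ℂ) * (z : ℂ) + (t : ℂ) * (z' : ℂ)‖
          ≤ ‖((1 - t : ℝ) : ℂ) * (z : ℂ)‖ + ‖(t : ℂ) * (z' : ℂ)‖ := norm_add_le _ _
        _ = (1 - t) * ‖(z : ℂ)‖ + t * ‖(z' : ℂ)‖ := by
            rw [norm_mul, norm_mul, Complex.norm_real, Complex.norm_real, Real.norm_of_nonneg h1t,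
              Real.norm_of_nonneg ht0]
        _ ≤ ‖(z : ℂ)‖ + ‖(z' : ℂ)‖ := by
            nlinarith [norm_nonneg (z : ℂ), norm_nonneg (z' : ℂ)]
    rw [Complex.normSq_eq_norm_sq, hRdef]
    exact pow_le_pow_left₀ (norm_nonneg _) this 2
  have hprod := normSq_dd_mul v₁ v₂ w
  rw [hQ, hD] at hprod
  have hprod' : Complex.normSq (dd v₂ w) * Complex.normSq (dd v₁ w) ≤ (D : ℝ) ^ 2 * Y ^ 2 := by
    rw [hprod]
    have : w.im ^ 2 ≤ Y ^ 2 := pow_le_pow_left₀ (le_trans hy₀.le hwlo) hwhi 2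
    nlinarith [sq_nonneg (D : ℝ)]
  have hlow1 := normSq_dd_ge (ne_zero_of_det2_left hdet) w y₀ hy₀ hwlo
  have hlow2 := normSq_dd_ge (ne_zero_of_det2_right hdet) w y₀ hy₀ hwlo
  have hM1 : Complex.normSq (dd v₁ w) ≤ M := by
    rw [hMdef, le_div_iff₀ hc2]
    calc Complex.normSq (dd v₁ w) * c2 ≤ Complex.normSq (dd v₁ w) * Complex.normSq (dd v₂ w) :=
          mul_le_mul_of_nonneg_left hlow2 (Complex.normSq_nonneg _)
      _ = Complex.normSq (dd v₂ w) * Complex.normSq (dd v₁ w) := mul_comm _ _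
      _ ≤ _ := hprod'
  have hM2 : Complex.normSq (dd v₂ w) ≤ M := by
    rw [hMdef, le_div_iff₀ hc2]
    calc Complex.normSq (dd v₂ w) * c2 ≤ Complex.normSq (dd v₂ w) * Complex.normSq (dd v₁ w) :=
          mul_le_mul_of_nonneg_left hlow1 (Complex.normSq_nonneg _)
      _ ≤ _ := hprod'
  intro i
  exact ⟨coord_sq_le w y₀ R M hy₀ hwlo hwnorm hM1 i, coord_sq_le w y₀ R M hy₀ hwlo hwnorm hM2 i⟩

/-- integer vectors with bounded squares form a finite set. -/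
lemma finite_box (K : ℝ) : {u : Fin 2 → ℤ | ∀ i, (u i : ℝ) ^ 2 ≤ K}.Finite := by
  set n : ℤ := ⌈K⌉ with hn
  refine (Set.finite_Icc (fun _ : Fin 2 => -n) (fun _ : Fin 2 => n)).subset ?_
  intro u hu
  rw [Set.mem_Icc]
  have key : ∀ i, |u i| ≤ n := by
    intro i
    have h1 : ((u i) ^ 2 : ℤ) ≤ n := by
      have : ((u i : ℝ)) ^ 2 ≤ K := hu i
      have h2 : (((u i) ^ 2 : ℤ) : ℝ) ≤ K := by push_cast; exact this
      exact Int.le_ceil_iff.mpr (by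
        have := h2
        linarith [Int.cast_le (R := ℝ) |>.mpr (le_refl ((u i)^2))]) |> fun x => x
    have h3 : |u i| ≤ (u i) ^ 2 := by
      rcases abs_cases (u i) with ⟨h, _⟩ | ⟨h, _⟩ <;> rw [h] <;> nlinarith
    linarith
  constructor
  · intro i
    have := key i
    rw [abs_le] at this
    exact this.1
  · intro i
    have := key i
    rw [abs_le] at this
    exact this.2

/-- a matrix fixing two independent vectors is the identity. -/
lemma eq_one_of_fix {g : SL(2,ℤ)} {v v' : Fin 2 → ℤ} (h : det2 v v' ≠ 0) (h1 : g • v = v)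
    (h2 : g • v' = v') : g = 1 := by
  have a0 := congrFun h1 0
  have a1 := congrFun h1 1
  have b0 := congrFun h2 0
  have b1 := congrFun h2 1
  rw [smul_vec_zero] at a0 b0
  rw [smul_vec_one] at a1 b1
  simp only [det2] at h
  have e00 : (g 0 0 - 1) * (v 0 * v' 1 - v 1 * v' 0) = 0 := by linear_combination v' 1 * a0 - v 1 * b0
  have e01 : (g 0 1) * (v 0 * v' 1 - v 1 * v' 0) = 0 := by linear_combination v 0 * b0 - v' 0 * a0
  have e10 : (g 1 0) * (v 0 * v' 1 - v 1 * v' 0) = 0 := by linear_combination v' 1 * a1 - v 1 * b1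
  have e11 : (g 1 1 - 1) * (v 0 * v' 1 - v 1 * v' 0) = 0 := by linear_combination v 0 * b1 - v' 0 * a1
  have f00 : g 0 0 = 1 := by
    rcases mul_eq_zero.mp e00 with h' | h'
    · linarith
    · exact absurd h' h
  have f01 : g 0 1 = 0 := (mul_eq_zero.mp e01).resolve_right h
  have f10 : g 1 0 = 0 := (mul_eq_zero.mp e10).resolve_right h
  have f11 : g 1 1 = 1 := by
    rcases mul_eq_zero.mp e11 with h' | h'
    · linarith
    · exact absurd h' h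
  ext i j
  fin_cases i <;> fin_cases j <;> simp [f00, f01, f10, f11]

/-- **(G1)**: the side function is tame for `SL(2,ℤ)` (hence for every subgroup). -/
theorem tame_F (v v' : Fin 2 → ℤ) : Tame SL(2,ℤ) (F v v') := by
  intro z z'
  by_cases hD : det2 v v' = 0
  · convert Set.finite_empty
    ext ε
    simp [F_eq_zero_of_det2 hD]
  obtain ⟨K, hK⟩ := coord_bound z z' (det2 v v')
  let box : Set (Fin 2 → ℤ) := {u | ∀ i, (u i : ℝ) ^ 2 ≤ K}
  have hbox : (box ×ˢ box).Finite := (finite_box K).prod (finite_box K)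
  refine Set.Finite.of_injOn (f := fun ε : SL(2,ℤ) => (ε⁻¹ • v, ε⁻¹ • v')) ?_ ?_ hbox
  · intro ε hε
    simp only [Set.mem_ofPred_eq] at hε
    rw [F_smul_point, F_smul_point ε v v' z] at hε
    have := hK (ε⁻¹ • v) (ε⁻¹ • v') (det2_smul _ _ _) hε
    exact ⟨fun i => (this i).1, fun i => (this i).2⟩
  · intro ε _ δ _ h
    simp only [Prod.mk.injEq] at h
    have h1 : (δ * ε⁻¹) • v = v := by
      rw [mul_smul, h.1, smul_inv_smul]
    have h2 : (δ * ε⁻¹) • v' = v' := by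
      rw [mul_smul, h.2, smul_inv_smul]
    have := eq_one_of_fix hD h1 h2
    have : δ = ε := by
      have h3 := congrArg (· * ε) this
      simpa using h3
    exact this.symm

theorem tame_F_subgroup (Γ : Subgroup SL(2,ℤ)) (v v' : Fin 2 → ℤ) : Tame Γ (F v v') :=
  (tame_F v v').subgroup Γ

end Fermat.Agent.ES.PD.TameF18
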