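/-
Program L, chapter (I2), plan C (helper18), brick PD-E: the arithmetic at `z₀ = e^{iπ/3}` and the
chain formula.

`τ = S T⁻¹` fixes `z₀`.  For `k ∈ SL(2,ℤ)` the Farey edge `(k e₁, k e₂)` separates `z₀` from `S z₀`
iff `k ∈ {±1, ±S}` (G2).  Hence, for a subgroup `Γ ∋ -1` and a word `w` in `S, τ, τ⁻¹`,
`D Γ (F (g e₁) (g e₂)) z₀ (val w • z₀) = -4 * (flow of w) (Γ g)` (formula (*)), where the flow lives
on `X = SL(2,ℤ) ⧸ Γ` with `x_g = mk g⁻¹`.  (Mathlib + TameF18 + Flow18.)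
-/
import Mathlib
import Fermat.Agent.ES.PD.TameF18
import Fermat.Agent.ES.PD.Flow18

set_option autoImplicit false

open Matrix MatrixGroups UpperHalfPlane ComplexConjugate ModularGroup

namespace Fermat.Agent.ES.PD.Chain18

open Fermat.Agent.ES.PD.SideFn18 Fermat.Agent.ES.PD.TameF18
open Fermat.Agent.ES.PD.TameSum18 hiding S
open Fermat.Agent.ES.PD.Flow18

/-- the cusp `∞`. -/
def e1 : Fin 2 → ℤ := ![1, 0]

/-- the cusp `0`. -/
def e2 : Fin 2 → ℤ := ![0, 1]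

/-- `τ = S T⁻¹ = [[0,-1],[1,-1]]`, of order `3`, fixing `z₀`. -/
def tau : SL(2,ℤ) := S * T⁻¹

lemma coe_tau : (tau : Matrix (Fin 2) (Fin 2) ℤ) = !![0, -1; 1, -1] := by
  simp only [tau, Matrix.SpecialLinearGroup.coe_mul, coe_S, coe_T_inv]
  ext i j
  fin_cases i <;> fin_cases j <;> simp [Matrix.mul_apply, Fin.sum_univ_two]

lemma tau_cube : tau ^ 3 = 1 := by
  ext i j
  simp only [pow_succ, pow_zero, one_mul, Matrix.SpecialLinearGroup.coe_mul, coe_tau,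
    Matrix.SpecialLinearGroup.coe_one]
  fin_cases i <;> fin_cases j <;> simp [Matrix.mul_apply, Fin.sum_univ_two]

lemma tau_inv_mul_S : tau⁻¹ * S = T := by
  simp [tau, mul_assoc]

/-- `z₀ = e^{iπ/3} = 1/2 + i √3/2`. -/
noncomputable def z0 : ℍ :=
  ⟨(1 / 2 : ℂ) + ((Real.sqrt 3 / 2 : ℝ) : ℂ) * Complex.I, by
    have : (0 : ℝ) < Real.sqrt 3 / 2 := by positivity
    simp⟩

lemma coe_z0 : (z0 : ℂ) = (1 / 2 : ℂ) + ((Real.sqrt 3 / 2 : ℝ) : ℂ) * Complex.I := rfl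

lemma z0_re : (z0 : ℂ).re = 1 / 2 := by
  simp [coe_z0]

lemma z0_normSq : Complex.normSq (z0 : ℂ) = 1 := by
  rw [Complex.normSq_apply, coe_z0]
  simp only [Complex.add_re, Complex.mul_re, Complex.ofReal_re, Complex.I_re, Complex.ofReal_im,
    Complex.I_im, Complex.add_im, Complex.mul_im]
  norm_num
  have h3 : Real.sqrt 3 * Real.sqrt 3 = 3 := Real.mul_self_sqrt (by norm_num)
  nlinarith [h3]

lemma z0_quad : (z0 : ℂ) * (z0 : ℂ) - (z0 : ℂ) + 1 = 0 := by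
  have h3 : ((Real.sqrt 3 : ℝ) : ℂ) * ((Real.sqrt 3 : ℝ) : ℂ) = 3 := by
    rw [← Complex.ofReal_mul, Real.mul_self_sqrt (by norm_num)]
    norm_num
  rw [coe_z0]
  push_cast
  linear_combination (1 / 4 : ℂ) * Complex.I * Complex.I * h3 + (3 / 4 : ℂ) * Complex.I_mul_I

lemma tau_smul_z0 : tau • z0 = z0 := by
  apply UpperHalfPlane.ext
  rw [coe_smul']
  have h00 : (tau 0 0 : ℤ) = 0 := by simp [coe_tau]
  have h01 : (tau 0 1 : ℤ) = -1 := by simp [coe_tau]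
  have h10 : (tau 1 0 : ℤ) = 1 := by simp [coe_tau]
  have h11 : (tau 1 1 : ℤ) = -1 := by simp [coe_tau]
  rw [h00, h01, h10, h11]
  have hd : ((1 : ℤ) : ℂ) * (z0 : ℂ) + ((-1 : ℤ) : ℂ) ≠ 0 := by
    have := den_ne_zero tau z0
    unfold den at this
    rw [h10, h11] at this
    exact this
  rw [div_eq_iff hd]
  push_cast
  linear_combination (-1 : ℂ) * z0_quad

lemma tau_inv_smul_z0 : tau⁻¹ • z0 = z0 := by
  conv_lhs => rw [← tau_smul_z0]
  rw [inv_smul_smul]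

/-! ### the arithmetic at `z₀` -/

/-- twice the value of `Qf` at `z₀`. -/
def twoQ (v v' : Fin 2 → ℤ) : ℤ := -2 * (v 1 * v' 1 + v 0 * v' 0) + (v 0 * v' 1 + v 1 * v' 0)

lemma Qf_z0 (v v' : Fin 2 → ℤ) : Qf v v' (z0 : ℂ) = (twoQ v v' : ℝ) / 2 := by
  rw [Qf_eq, z0_normSq, z0_re]
  unfold twoQ
  push_cast
  ring

lemma sign_intCast_div_two (n : ℤ) :
    ((SignType.sign ((n : ℝ) / 2) : SignType) : ℤ) = ((SignType.sign n : SignType) : ℤ) := by
  rcases lt_trichotomy n 0 with h | h | h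
  · have : (n : ℝ) / 2 < 0 := by
      have : (n : ℝ) < 0 := by exact_mod_cast h
      linarith
    rw [sign_neg this, sign_neg h]
  · subst h
    simp
  · have : 0 < (n : ℝ) / 2 := by
      have : (0 : ℝ) < n := by exact_mod_cast h
      linarith
    rw [sign_pos this, sign_pos h]

lemma F_z0 (v v' : Fin 2 → ℤ) :
    F v v' z0 = ((SignType.sign (det2 v v') : SignType) : ℤ)
      * ((SignType.sign (twoQ v v') : SignType) : ℤ) := by
  unfold F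
  rw [Qf_z0, sign_intCast_div_two]

lemma S_inv_smul (v : Fin 2 → ℤ) : (S⁻¹ : SL(2,ℤ)) • v = ![v 1, - v 0] := by
  have hS : ((S⁻¹ : SL(2,ℤ)) : Matrix (Fin 2) (Fin 2) ℤ) = !![0, 1; -1, 0] := by
    rw [Matrix.SpecialLinearGroup.coe_inv, coe_S, Matrix.adjugate_fin_two_of]
    simp
  funext i
  fin_cases i
  · show ((S⁻¹ : SL(2,ℤ)) • v) 0 = v 1
    rw [smul_vec_zero]
    have h00 : ((S⁻¹ : SL(2,ℤ)) 0 0 : ℤ) = 0 := by
      show ((S⁻¹ : SL(2,ℤ)) : Matrix (Fin 2) (Fin 2) ℤ) 0 0 = 0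
      rw [hS]; rfl
    have h01 : ((S⁻¹ : SL(2,ℤ)) 0 1 : ℤ) = 1 := by
      show ((S⁻¹ : SL(2,ℤ)) : Matrix (Fin 2) (Fin 2) ℤ) 0 1 = 1
      rw [hS]; rfl
    rw [h00, h01]; ring
  · show ((S⁻¹ : SL(2,ℤ)) • v) 1 = - v 0
    rw [smul_vec_one]
    have h10 : ((S⁻¹ : SL(2,ℤ)) 1 0 : ℤ) = -1 := by
      show ((S⁻¹ : SL(2,ℤ)) : Matrix (Fin 2) (Fin 2) ℤ) 1 0 = -1
      rw [hS]; rfl
    have h11 : ((S⁻¹ : SL(2,ℤ)) 1 1 : ℤ) = 0 := by
      show ((S⁻¹ : SL(2,ℤ)) : Matrix (Fin 2) (Fin 2) ℤ) 1 1 = 0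
      rw [hS]; rfl
    rw [h10, h11]; ring

lemma smul_e1 (k : SL(2,ℤ)) : k • e1 = ![k 0 0, k 1 0] := by
  funext i
  fin_cases i
  · show (k • e1) 0 = k 0 0
    rw [smul_vec_zero]; simp [e1]
  · show (k • e1) 1 = k 1 0
    rw [smul_vec_one]; simp [e1]

lemma smul_e2 (k : SL(2,ℤ)) : k • e2 = ![k 0 1, k 1 1] := by
  funext i
  fin_cases i
  · show (k • e2) 0 = k 0 1
    rw [smul_vec_zero]; simp [e2]
  · show (k • e2) 1 = k 1 1
    rw [smul_vec_one]; simp [e2]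

/-- the jump of the Farey edge `(k e₁, k e₂)` between `z₀` and `S z₀`. -/
noncomputable def cfun (k : SL(2,ℤ)) : ℤ := F (k • e1) (k • e2) (S • z0) - F (k • e1) (k • e2) z0

lemma cfun_eq (k : SL(2,ℤ)) :
    cfun k = ((SignType.sign (-2 * (k 0 0 * k 0 1 + k 1 0 * k 1 1)
        - (k 1 0 * k 0 1 + k 0 0 * k 1 1)) : SignType) : ℤ)
      - ((SignType.sign (-2 * (k 1 0 * k 1 1 + k 0 0 * k 0 1)
        + (k 0 0 * k 1 1 + k 1 0 * k 0 1)) : SignType) : ℤ) := by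
  have hdet := det_eq_one' k
  unfold cfun
  rw [F_smul_point, F_z0, F_z0, det2_smul, S_inv_smul, S_inv_smul, smul_e1, smul_e2]
  have hd : det2 ![k 0 0, k 1 0] ![k 0 1, k 1 1] = 1 := by
    simp only [det2, Matrix.cons_val_zero, Matrix.cons_val_one]
    linarith
  rw [hd]
  simp only [twoQ, Matrix.cons_val_zero, Matrix.cons_val_one, sign_one, SignType.coe_one, one_mul]
  congr 3 <;> ring

lemma sl2_ext {k k' : SL(2,ℤ)} (h00 : k 0 0 = k' 0 0) (h01 : k 0 1 = k' 0 1) (h10 : k 1 0 = k' 1 0)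
    (h11 : k 1 1 = k' 1 1) : k = k' := by
  ext i j
  fin_cases i <;> fin_cases j
  · exact h00
  · exact h01
  · exact h10
  · exact h11

lemma S_apply : (S 0 0 : ℤ) = 0 ∧ (S 0 1 : ℤ) = -1 ∧ (S 1 0 : ℤ) = 1 ∧ (S 1 1 : ℤ) = 0 := by
  refine ⟨?_, ?_, ?_, ?_⟩ <;>
  · show (S : Matrix (Fin 2) (Fin 2) ℤ) _ _ = _
    rw [coe_S]; rfl

/-- **(G2)** the classification of the Farey edges separating `z₀` from `S z₀`. -/
theorem cfun_cases (k : SL(2,ℤ)) :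
    ((k = 1 ∨ k = -1) ∧ cfun k = -2) ∨ ((k = S ∨ k = -S) ∧ cfun k = 2) ∨
      (k ≠ 1 ∧ k ≠ -1 ∧ k ≠ S ∧ k ≠ -S ∧ cfun k = 0) := by
  have hdet := det_eq_one' k
  rw [cfun_eq]
  set p := k 0 0 with hp
  set q := k 1 0 with hq
  set r := k 0 1 with hr
  set s := k 1 1 with hs
  by_cases hX : q * s = 0 ∧ p * r = 0
  · obtain ⟨hqs, hpr⟩ := hX
    rcases mul_eq_zero.mp hqs with hq0 | hs0
    · -- q = 0, p s = 1, r = 0
      have hps : p * s = 1 := by rw [hq0] at hdet; linarith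
      have hr0 : r = 0 := by
        rcases mul_eq_zero.mp hpr with h | h
        · rw [h] at hps; simp at hps
        · exact h
      left
      rcases Int.eq_one_or_neg_one_of_mul_eq_one' hps with ⟨h1, h2⟩ | ⟨h1, h2⟩
      · refine ⟨Or.inl (sl2_ext ?_ ?_ ?_ ?_), ?_⟩
        · simpa using h1
        · simpa using hr0
        · simpa using hq0
        · simpa using h2
        · rw [hq0, hr0, h1, h2]; norm_num
      · refine ⟨Or.inr (sl2_ext ?_ ?_ ?_ ?_), ?_⟩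
        · simpa using h1
        · simpa using hr0
        · simpa using hq0
        · simpa using h2
        · rw [hq0, hr0, h1, h2]; norm_num
    · -- s = 0, q r = -1, p = 0
      have hqr : q * (-r) = 1 := by rw [hs0] at hdet; linarith
      have hp0 : p = 0 := by
        rcases mul_eq_zero.mp hpr with h | h
        · exact h
        · rw [h] at hqr; simp at hqr
      right; left
      obtain ⟨S00, S01, S10, S11⟩ := S_apply
      rcases Int.eq_one_or_neg_one_of_mul_eq_one' hqr with ⟨h1, h2⟩ | ⟨h1, h2⟩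
      · have hr' : r = -1 := by linarith
        refine ⟨Or.inl (sl2_ext ?_ ?_ ?_ ?_), ?_⟩
        · rw [S00]; exact hp0
        · rw [S01]; exact hr'
        · rw [S10]; exact h1
        · rw [S11]; exact hs0
        · rw [hs0, hp0, h1, hr']; norm_num
      · have hr' : r = 1 := by linarith
        refine ⟨Or.inr (sl2_ext ?_ ?_ ?_ ?_), ?_⟩
        · simp; exact hp0
        · simp; exact hr'
        · simp; exact h1
        · simp; exact hs0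
        · rw [hs0, hp0, h1, hr']; norm_num
  · right; right
    -- A * B > 0
    set A := -2 * (q * s + p * r) + (p * s + q * r) with hA
    set B := -2 * (p * r + q * s) - (q * r + p * s) with hB
    have hXY : 1 ≤ (q * s) ^ 2 + (q * s) * (p * r) + (p * r) ^ 2 := by
      by_contra hcon
      have h1 : (q * s) ^ 2 + (q * s) * (p * r) + (p * r) ^ 2 ≤ 0 := by omega
      have h2 : (2 * (q * s) + p * r) ^ 2 + 3 * (p * r) ^ 2 ≤ 0 := by nlinarith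
      have h3 : (p * r) ^ 2 ≤ 0 := by nlinarith [sq_nonneg (2 * (q * s) + p * r)]
      have h4 : p * r = 0 := by
        have := sq_nonneg (p * r)
        exact pow_eq_zero_iff (two_ne_zero) |>.mp (le_antisymm h3 this)
      have h5 : (q * s) ^ 2 ≤ 0 := by rw [h4] at h1; simpa using h1
      have h6 : q * s = 0 := by
        have := sq_nonneg (q * s)
        exact pow_eq_zero_iff (two_ne_zero) |>.mp (le_antisymm h5 this)
      exact hX ⟨h6, h4⟩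
    have hAB : 0 < A * B := by
      have hβ : (p * s + q * r) ^ 2 = 1 + 4 * ((q * s) * (p * r)) := by
        have : (p * s + q * r) ^ 2 = (p * s - q * r) ^ 2 + 4 * ((q * s) * (p * r)) := by ring
        rw [this]
        have : p * s - q * r = 1 := by linarith
        rw [this]; ring
      have : A * B = 4 * (q * s + p * r) ^ 2 - (p * s + q * r) ^ 2 := by rw [hA, hB]; ring
      rw [this, hβ]
      nlinarith
    have hne : ∀ k' : SL(2,ℤ), (k' 1 0 * k' 1 1 = 0 ∧ k' 0 0 * k' 0 1 = 0) → k ≠ k' := by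
      intro k' hk' hkk'
      apply hX
      rw [hq, hs, hp, hr, hkk']
      exact hk'
    obtain ⟨S00, S01, S10, S11⟩ := S_apply
    refine ⟨hne 1 (by simp), hne (-1) (by simp), hne S (by rw [S00, S11]; simp),
      hne (-S) (by simp), ?_⟩
    rcases pos_and_pos_or_neg_and_neg_of_mul_pos hAB with ⟨h1, h2⟩ | ⟨h1, h2⟩
    · rw [sign_pos h1, sign_pos h2, sub_self]
    · rw [sign_neg h1, sign_neg h2, sub_self]

/-! ### the `S`-step -/

lemma finsum_subgroup_eq_sum {G : Type*} [Group G] (Γ : Subgroup G) [DecidablePred (· ∈ Γ)]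
    (f : G → ℤ) (s : Finset G) (hs : ∀ g, f g ≠ 0 → g ∈ s) :
    ∑ᶠ ε : Γ, f (ε : G) = ∑ g ∈ s, if g ∈ Γ then f g else 0 := by
  have h1 : ∑ᶠ ε : Γ, f (ε : G) = ∑ᶠ (g : G) (_ : g ∈ Γ), f g :=
    finsum_subtype_eq_finsum_cond (p := fun g => g ∈ Γ) (f := f)
  rw [h1]
  have h2 : ∀ g : G, (∑ᶠ (_ : g ∈ Γ), f g) = if g ∈ Γ then f g else 0 := fun g => finsum_eq_if
  simp_rw [h2]
  apply finsum_eq_sum_of_support_subset
  intro g hg
  simp only [Function.mem_support, ne_eq, ite_eq_right_iff, Classical.not_imp] at hg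
  exact hs g hg.2

lemma cfun_one : cfun 1 = -2 := by
  rw [cfun_eq]; simp

lemma cfun_neg_one : cfun (-1) = -2 := by
  rw [cfun_eq]; simp

lemma cfun_S : cfun S = 2 := by
  obtain ⟨S00, S01, S10, S11⟩ := S_apply
  rw [cfun_eq, S00, S01, S10, S11]; simp

lemma cfun_neg_S : cfun (-S) = 2 := by
  obtain ⟨S00, S01, S10, S11⟩ := S_apply
  rw [cfun_eq]
  simp only [Matrix.SpecialLinearGroup.coe_neg, Matrix.neg_apply, S00, S01, S10, S11]
  simp

lemma one_ne_neg_one : (1 : SL(2,ℤ)) ≠ -1 := by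
  intro h
  have := congrArg (fun k : SL(2,ℤ) => (k 0 0 : ℤ)) h
  simp at this

lemma one_ne_S : (1 : SL(2,ℤ)) ≠ S := by
  intro h
  have := congrArg (fun k : SL(2,ℤ) => (k 0 0 : ℤ)) h
  simp at this

lemma one_ne_neg_S : (1 : SL(2,ℤ)) ≠ -S := by
  intro h
  have := congrArg (fun k : SL(2,ℤ) => (k 0 0 : ℤ)) h
  simp [S_apply.1] at this

lemma neg_one_ne_S : (-1 : SL(2,ℤ)) ≠ S := by
  intro h
  have := congrArg (fun k : SL(2,ℤ) => (k 0 0 : ℤ)) h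
  simp [S_apply.1] at this

lemma neg_one_ne_neg_S : (-1 : SL(2,ℤ)) ≠ -S := by
  intro h
  have := congrArg (fun k : SL(2,ℤ) => (k 0 0 : ℤ)) h
  simp [S_apply.1] at this

lemma S_ne_neg_S : (S : SL(2,ℤ)) ≠ -S := by
  intro h
  have := congrArg (fun k : SL(2,ℤ) => (k 1 0 : ℤ)) h
  simp [S_apply.2.2.1] at this

section Step

variable (Γ : Subgroup SL(2,ℤ))

open Classical in
/-- **the `S`-step**: the Farey edge `(g e₁, g e₂)` against the segment `h z₀ → h S z₀`. -/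
theorem D_S_step (hneg : (-1 : SL(2,ℤ)) ∈ Γ) (g h : SL(2,ℤ)) :
    D Γ (F (g • e1) (g • e2)) (h • z0) ((h * S) • z0)
      = -4 * ((if g * h⁻¹ ∈ Γ then (1 : ℤ) else 0) - (if g * S⁻¹ * h⁻¹ ∈ Γ then (1 : ℤ) else 0)) := by
  classical
  unfold D
  have hterm : ∀ ε : Γ, F (g • e1) (g • e2) (ε • ((h * S) • z0)) - F (g • e1) (g • e2) (ε • (h • z0))
      = cfun (((ε : SL(2,ℤ)) * h)⁻¹ * g) := by
    intro ε
    unfold cfun
    rw [Subgroup.smul_def, Subgroup.smul_def, ← mul_smul, ← mul_smul, ← mul_assoc, mul_smul _ S z0,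
      F_smul_point ((ε : SL(2,ℤ)) * h), F_smul_point ((ε : SL(2,ℤ)) * h), ← mul_smul, ← mul_smul]
  simp_rw [hterm]
  let emb : SL(2,ℤ) ↪ SL(2,ℤ) := ⟨fun k => g * k⁻¹ * h⁻¹, by
    intro a b hab
    simpa using hab⟩
  let K : Finset SL(2,ℤ) := {1, -1, S, -S}
  have hs : ∀ x : SL(2,ℤ), cfun ((x * h)⁻¹ * g) ≠ 0 → x ∈ K.map emb := by
    intro x hx
    rw [Finset.mem_map]
    refine ⟨(x * h)⁻¹ * g, ?_, ?_⟩
    · rcases cfun_cases ((x * h)⁻¹ * g) with ⟨h1 | h1, _⟩ | ⟨h1 | h1, _⟩ | ⟨_, _, _, _, h0⟩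
      · rw [h1]; simp [K]
      · rw [h1]; simp [K]
      · rw [h1]; simp [K]
      · rw [h1]; simp [K]
      · exact absurd h0 hx
    · show g * ((x * h)⁻¹ * g)⁻¹ * h⁻¹ = x
      group
  rw [finsum_subgroup_eq_sum Γ (fun x => cfun ((x * h)⁻¹ * g)) (K.map emb) hs, Finset.sum_map]
  have hf : ∀ k : SL(2,ℤ), cfun ((emb k * h)⁻¹ * g) = cfun k := by
    intro k
    congr 1
    show (g * k⁻¹ * h⁻¹ * h)⁻¹ * g = k
    group
  simp_rw [hf]
  have hm1 : emb 1 = g * h⁻¹ := by show g * 1⁻¹ * h⁻¹ = _; simp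
  have hm2 : emb (-1) ∈ Γ ↔ g * h⁻¹ ∈ Γ := by
    show g * (-1)⁻¹ * h⁻¹ ∈ Γ ↔ _
    have : g * (-1 : SL(2,ℤ))⁻¹ * h⁻¹ = (-1) * (g * h⁻¹) := by
      rw [inv_neg, inv_one, mul_neg, mul_one, neg_mul, neg_one_mul]
    rw [this]
    exact Γ.mul_mem_cancel_left hneg
  have hm3 : emb S = g * S⁻¹ * h⁻¹ := rfl
  have hm4 : emb (-S) ∈ Γ ↔ g * S⁻¹ * h⁻¹ ∈ Γ := by
    show g * (-S)⁻¹ * h⁻¹ ∈ Γ ↔ _
    have : g * (-S : SL(2,ℤ))⁻¹ * h⁻¹ = (-1) * (g * S⁻¹ * h⁻¹) := by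
      rw [inv_neg, mul_neg, neg_mul, neg_one_mul]
    rw [this]
    exact Γ.mul_mem_cancel_left hneg
  have hK : K = {1, -1, S, -S} := rfl
  rw [hK, Finset.sum_insert, Finset.sum_insert, Finset.sum_insert, Finset.sum_singleton,
    cfun_one, cfun_neg_one, cfun_S, cfun_neg_S, hm1, hm3]
  · simp only [hm2, hm4]
    split_ifs <;> ring
  · simp only [Finset.mem_singleton]; exact S_ne_neg_S
  · simp only [Finset.mem_insert, Finset.mem_singleton, not_or]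
    exact ⟨neg_one_ne_S, neg_one_ne_neg_S⟩
  · simp only [Finset.mem_insert, Finset.mem_singleton, not_or]
    exact ⟨one_ne_neg_one, one_ne_S, one_ne_neg_S⟩

end Step

/-! ### words and the chain formula -/

/-- the value of a letter. -/
def lv : Letter → SL(2,ℤ)
  | .s => S
  | .t => tau
  | .ti => tau⁻¹

/-- the value of a word. -/
def val : List Letter → SL(2,ℤ)
  | [] => 1
  | l :: w => lv l * val w

lemma val_append (w w' : List Letter) : val (w ++ w') = val w * val w' := by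
  induction w with
  | nil => simp [val]
  | cons l w ih =>
    show lv l * val (w ++ w') = lv l * val w * val w'
    rw [ih, mul_assoc]

lemma S_mul_S : (S * S : SL(2,ℤ)) = -1 := by
  ext i j
  simp only [Matrix.SpecialLinearGroup.coe_mul, coe_S, Matrix.SpecialLinearGroup.coe_neg,
    Matrix.SpecialLinearGroup.coe_one]
  fin_cases i <;> fin_cases j <;> simp [Matrix.mul_apply, Fin.sum_univ_two]

lemma S_inv : (S⁻¹ : SL(2,ℤ)) = -S := by
  rw [inv_eq_iff_mul_eq_one, mul_neg, S_mul_S, neg_neg]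

section ChainFormula

variable (Γ : Subgroup SL(2,ℤ))

/-- `σ` on `X = SL(2,ℤ) ⧸ Γ`: the action of `S⁻¹` (so that `x_g = mk g⁻¹ ↦ x_{g S}`). -/
def sigX : Equiv.Perm (SL(2,ℤ) ⧸ Γ) := MulAction.toPerm (S⁻¹ : SL(2,ℤ))

/-- `τ` on `X`: the action of `τ⁻¹`. -/
def tauX : Equiv.Perm (SL(2,ℤ) ⧸ Γ) := MulAction.toPerm (tau⁻¹ : SL(2,ℤ))

lemma act_mk (l : Letter) (a : SL(2,ℤ)) :
    act (sigX Γ) (tauX Γ) l ((a : SL(2,ℤ)) : SL(2,ℤ) ⧸ Γ) = (((lv l)⁻¹ * a : SL(2,ℤ)) : SL(2,ℤ) ⧸ Γ) := by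
  cases l
  · rfl
  · rfl
  · show (tauX Γ)⁻¹ ((a : SL(2,ℤ)) : SL(2,ℤ) ⧸ Γ) = _
    have : (tauX Γ)⁻¹ = MulAction.toPerm ((tau⁻¹ : SL(2,ℤ))⁻¹) := by
      ext x
      show (MulAction.toPerm (tau⁻¹ : SL(2,ℤ))).symm x = _
      rw [MulAction.toPerm_symm_apply]
      rfl
    rw [this]
    rfl

lemma endpt_mk (h : SL(2,ℤ)) (w : List Letter) :
    endpt (sigX Γ) (tauX Γ) ((h⁻¹ : SL(2,ℤ)) : SL(2,ℤ) ⧸ Γ) w
      = (((h * val w)⁻¹ : SL(2,ℤ)) : SL(2,ℤ) ⧸ Γ) := by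
  induction w generalizing h with
  | nil => simp [endpt, val]
  | cons l w ih =>
    show endpt (sigX Γ) (tauX Γ) (act (sigX Γ) (tauX Γ) l ((h⁻¹ : SL(2,ℤ)) : SL(2,ℤ) ⧸ Γ)) w = _
    rw [act_mk, ← _root_.mul_inv_rev, ih]
    show _ = (((h * (lv l * val w))⁻¹ : SL(2,ℤ)) : SL(2,ℤ) ⧸ Γ)
    rw [mul_assoc]

lemma sigX_sigX (hneg : (-1 : SL(2,ℤ)) ∈ Γ) (x : SL(2,ℤ) ⧸ Γ) : sigX Γ (sigX Γ x) = x := by
  induction x using QuotientGroup.induction_on with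
  | H a =>
    show (S⁻¹ : SL(2,ℤ)) • ((S⁻¹ : SL(2,ℤ)) • ((a : SL(2,ℤ)) : SL(2,ℤ) ⧸ Γ)) = _
    rw [← mul_smul, MulAction.Quotient.smul_mk, QuotientGroup.eq, smul_eq_mul]
    have : (S⁻¹ * S⁻¹ * a)⁻¹ * a = -1 := by
      rw [← _root_.mul_inv_rev, S_mul_S]
      have : ((-1 : SL(2,ℤ))⁻¹ * a)⁻¹ * a = (a⁻¹ * (-1)) * a := by
        rw [_root_.mul_inv_rev, inv_inv]
      rw [this, mul_neg, mul_one, neg_mul, inv_mul_cancel]
    rw [this]
    exact hneg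

lemma tauX_cube (x : SL(2,ℤ) ⧸ Γ) : tauX Γ (tauX Γ (tauX Γ x)) = x := by
  show (tau⁻¹ : SL(2,ℤ)) • ((tau⁻¹ : SL(2,ℤ)) • ((tau⁻¹ : SL(2,ℤ)) • x)) = x
  rw [← mul_smul, ← mul_smul]
  have : (tau⁻¹ * tau⁻¹ * tau⁻¹ : SL(2,ℤ)) = 1 := by
    rw [← _root_.mul_inv_rev, ← _root_.mul_inv_rev, inv_eq_one, ← mul_assoc]
    have := tau_cube
    rw [pow_succ, pow_two] at this
    exact this
  rw [this, one_smul]

open Classical in
/-- **formula (\*)**: the intersection of the Farey edge `(g e₁, g e₂)` with the path of the word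
`w` (started at `h z₀`) is `-4` times the flow of `w` at `Γ g`. -/
theorem chain_formula (hneg : (-1 : SL(2,ℤ)) ∈ Γ) (g : SL(2,ℤ)) (w : List Letter) (h : SL(2,ℤ)) :
    D Γ (F (g • e1) (g • e2)) (h • z0) ((h * val w) • z0)
      = -4 * (fl (sigX Γ) (tauX Γ) ((h⁻¹ : SL(2,ℤ)) : SL(2,ℤ) ⧸ Γ) w)
          ((g⁻¹ : SL(2,ℤ)) : SL(2,ℤ) ⧸ Γ) := by
  induction w generalizing h with
  | nil =>
    show D Γ _ (h • z0) ((h * 1) • z0) = -4 * (0 : SL(2,ℤ) ⧸ Γ → ℤ) _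
    rw [mul_one, D_self]
    simp
  | cons l w ih =>
    have hT := tame_F_subgroup Γ (g • e1) (g • e2)
    show D Γ _ (h • z0) ((h * (lv l * val w)) • z0)
      = -4 * (flLetter (sigX Γ) ((h⁻¹ : SL(2,ℤ)) : SL(2,ℤ) ⧸ Γ) l
        + fl (sigX Γ) (tauX Γ) (act (sigX Γ) (tauX Γ) l ((h⁻¹ : SL(2,ℤ)) : SL(2,ℤ) ⧸ Γ)) w) _
    rw [D_add_path hT (h • z0) ((h * lv l) • z0), ← mul_assoc, ih (h * lv l), act_mk,
      ← _root_.mul_inv_rev, Pi.add_apply, mul_add]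
    congr 1
    cases l
    · -- `S`-step
      show D Γ _ (h • z0) ((h * S) • z0) = -4 * eps (sigX Γ) _ _
      rw [D_S_step Γ hneg g h]
      congr 1
      unfold eps
      rw [Pi.sub_apply, Pi.single_apply, Pi.single_apply]
      have e1' : (((g⁻¹ : SL(2,ℤ)) : SL(2,ℤ) ⧸ Γ) = ((h⁻¹ : SL(2,ℤ)) : SL(2,ℤ) ⧸ Γ))
          ↔ g * h⁻¹ ∈ Γ := by
        rw [QuotientGroup.eq, inv_inv]
      have e2' : (((g⁻¹ : SL(2,ℤ)) : SL(2,ℤ) ⧸ Γ) = sigX Γ ((h⁻¹ : SL(2,ℤ)) : SL(2,ℤ) ⧸ Γ))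
          ↔ g * S⁻¹ * h⁻¹ ∈ Γ := by
        show (((g⁻¹ : SL(2,ℤ)) : SL(2,ℤ) ⧸ Γ) = (((S⁻¹ * h⁻¹ : SL(2,ℤ))) : SL(2,ℤ) ⧸ Γ)) ↔ _
        rw [QuotientGroup.eq, inv_inv, mul_assoc]
      simp only [e1', e2']
    · -- `τ`-step
      show D Γ _ (h • z0) ((h * tau) • z0) = -4 * (0 : SL(2,ℤ) ⧸ Γ → ℤ) _
      rw [mul_smul, tau_smul_z0, D_self]
      simp
    · show D Γ _ (h • z0) ((h * tau⁻¹) • z0) = -4 * (0 : SL(2,ℤ) ⧸ Γ → ℤ) _
      rw [mul_smul, tau_inv_smul_z0, D_self]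
      simp

end ChainFormula

/-! ### words represent all of `SL(2,ℤ)` -/

lemma exists_val_eq (g : SL(2,ℤ)) : ∃ w : List Letter, val w = g := by
  have hg : g ∈ Subgroup.closure ({S, T} : Set SL(2,ℤ)) := by
    rw [_root_.SpecialLinearGroup.SL2Z_generators]; trivial
  induction hg using Subgroup.closure_induction with
  | mem x hx =>
    rcases hx with rfl | rfl
    · exact ⟨[Letter.s], by simp [val, lv]⟩
    · exact ⟨[Letter.ti, Letter.s], by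
        show tau⁻¹ * (S * 1) = T
        rw [mul_one, tau_inv_mul_S]⟩
  | one => exact ⟨[], rfl⟩
  | mul x y _ _ hx hy =>
    obtain ⟨w, rfl⟩ := hx
    obtain ⟨w', rfl⟩ := hy
    exact ⟨w ++ w', val_append w w'⟩
  | inv x _ hx =>
    obtain ⟨w, rfl⟩ := hx
    clear * -
    induction w with
    | nil => exact ⟨[], by simp [val]⟩
    | cons l w ih =>
      obtain ⟨w', hw'⟩ := ih
      have hl : ∃ u : List Letter, val u = (lv l)⁻¹ := by
        cases l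
        · refine ⟨[Letter.s, Letter.s, Letter.s], ?_⟩
          show S * (S * (S * 1)) = S⁻¹
          rw [mul_one, S_mul_S, mul_neg, mul_one, S_inv]
        · exact ⟨[Letter.ti], by simp [val, lv]⟩
        · exact ⟨[Letter.t], by simp [val, lv]⟩
      obtain ⟨u, hu⟩ := hl
      refine ⟨w' ++ u, ?_⟩
      rw [val_append, hw', hu]
      show _ = (lv l * val w)⁻¹
      rw [_root_.mul_inv_rev]

section Conn

variable (Γ : Subgroup SL(2,ℤ))

lemma exists_endpt_eq (x : SL(2,ℤ) ⧸ Γ) :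
    ∃ w : List Letter, endpt (sigX Γ) (tauX Γ) (((1 : SL(2,ℤ)) : SL(2,ℤ)) : SL(2,ℤ) ⧸ Γ) w = x := by
  induction x using QuotientGroup.induction_on with
  | H a =>
    obtain ⟨w, hw⟩ := exists_val_eq a⁻¹
    refine ⟨w, ?_⟩
    have := endpt_mk Γ 1 w
    rw [inv_one, one_mul, hw, inv_inv] at this
    exact this

lemma endpt_eq_base_iff (w : List Letter) :
    endpt (sigX Γ) (tauX Γ) (((1 : SL(2,ℤ)) : SL(2,ℤ)) : SL(2,ℤ) ⧸ Γ) w
      = (((1 : SL(2,ℤ)) : SL(2,ℤ)) : SL(2,ℤ) ⧸ Γ) ↔ val w ∈ Γ := by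
  have := endpt_mk Γ 1 w
  rw [inv_one, one_mul] at this
  rw [this, QuotientGroup.eq, inv_inv, mul_one]

end Conn

end Fermat.Agent.ES.PD.Chain18
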