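/-
Program L, chapter (I2), plan C (helper18), brick PD-D (helper23): the triangle relation (J2).

For nonzero integer vectors `v₁ v₂ v₃` the three side functions of the ideal triangle with vertices
the cusps of `v₁, v₂, v₃` add up to a constant plus a function with finite orbit sums (it is
supported on the closed ideal triangle, and only finitely many `SL(2,ℤ)`-translates of a point lie
in a given ideal triangle).  Hence the associated homomorphisms add up to zero: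
`D Γ (F v₁ v₂) z₀ (γ z₀) + D Γ (F v₂ v₃) z₀ (γ z₀) + D Γ (F v₃ v₁) z₀ (γ z₀) = 0`.
(Mathlib + TameSum18 + SideFn18 + TameF18.)
-/
import Mathlib
import Fermat.Agent.ES.PD.TameSum18
import Fermat.Agent.ES.PD.SideFn18
import Fermat.Agent.ES.PD.TameF18

set_option autoImplicit false

open Matrix MatrixGroups UpperHalfPlane ComplexConjugate

namespace Fermat.Agent.ES.PD.Triangle23

open Fermat.Agent.ES.PD.SideFn18 Fermat.Agent.ES.PD.TameSum18 Fermat.Agent.ES.PD.TameF18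

/-! ### bilinearity of `Qf` and `det2` -/

lemma Qf_add_left (u v v' : Fin 2 → ℤ) (w : ℂ) : Qf (u + v) v' w = Qf u v' w + Qf v v' w := by
  rw [Qf_eq, Qf_eq, Qf_eq]
  simp only [Pi.add_apply]
  push_cast
  ring

lemma Qf_add_right (v u v' : Fin 2 → ℤ) (w : ℂ) : Qf v (u + v') w = Qf v u w + Qf v v' w := by
  rw [Qf_eq, Qf_eq, Qf_eq]
  simp only [Pi.add_apply]
  push_cast
  ring

lemma Qf_self (v : Fin 2 → ℤ) (w : ℂ) : Qf v v w = -Complex.normSq (dd v w) := by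
  rw [Qf, Complex.mul_conj]
  simp

lemma det2_add_left (u v v' : Fin 2 → ℤ) : det2 (u + v) v' = det2 u v' + det2 v v' := by
  simp only [det2, Pi.add_apply]
  ring

lemma det2_add_right (v u v' : Fin 2 → ℤ) : det2 v (u + v') = det2 v u + det2 v v' := by
  simp only [det2, Pi.add_apply]
  ring

lemma det2_self (v : Fin 2 → ℤ) : det2 v v = 0 := by
  simp only [det2]
  ring

/-! ### the standard triple -/

/-- the sum of the three side functions of the ideal triangle with vertices `u₁, u₂, u₁ + u₂`. -/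
noncomputable def tri (u₁ u₂ : Fin 2 → ℤ) (z : ℍ) : ℤ :=
  F u₁ u₂ z + F u₂ (u₁ + u₂) z + F (u₁ + u₂) u₁ z

lemma tri_swap (u₁ u₂ : Fin 2 → ℤ) (z : ℍ) : tri u₂ u₁ z = -tri u₁ u₂ z := by
  simp only [tri]
  rw [F_swap u₁ u₂, add_comm u₂ u₁, F_swap u₂ (u₁ + u₂), F_swap (u₁ + u₂) u₁]
  ring

/-- the key identity `|dd u₁ z|² |dd u₂ z|² = Q² + (m y)²`. -/
lemma normSq_mul_eq (u₁ u₂ : Fin 2 → ℤ) (z : ℍ) :
    Complex.normSq (dd u₁ z) * Complex.normSq (dd u₂ z)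
      = (Qf u₁ u₂ z) ^ 2 + (((det2 u₁ u₂ : ℤ) : ℝ) * z.im) ^ 2 := by
  rw [mul_comm, normSq_dd_mul u₁ u₂ (z : ℂ), UpperHalfPlane.coe_im]

lemma normSq_dd_add (u₁ u₂ : Fin 2 → ℤ) (w : ℂ) :
    Complex.normSq (dd (u₁ + u₂) w)
      = Complex.normSq (dd u₁ w) + Complex.normSq (dd u₂ w) - 2 * Qf u₁ u₂ w := by
  have h := Qf_self (u₁ + u₂) w
  rw [Qf_add_left, Qf_add_right, Qf_add_right, Qf_self, Qf_self, Qf_swap u₁ u₂] at h
  linarith

/-- outside the closed ideal triangle the standard triple takes the value `1`. -/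
lemma tri_eq_one_or {u₁ u₂ : Fin 2 → ℤ} (hm : 0 < det2 u₁ u₂) (z : ℍ) :
    tri u₁ u₂ z = 1 ∨ (0 ≤ Qf u₁ u₂ z ∧ Qf u₁ u₂ z ≤ Complex.normSq (dd u₁ z) ∧
      Qf u₁ u₂ z ≤ Complex.normSq (dd u₂ z)) := by
  set Q : ℝ := Qf u₁ u₂ z with hQ
  set a : ℝ := Complex.normSq (dd u₁ z) with ha
  set b : ℝ := Complex.normSq (dd u₂ z) with hb
  have hab : a * b = Q ^ 2 + (((det2 u₁ u₂ : ℤ) : ℝ) * z.im) ^ 2 := normSq_mul_eq u₁ u₂ z
  have hmy : 0 < (((det2 u₁ u₂ : ℤ) : ℝ) * z.im) ^ 2 := by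
    have h1 : (0 : ℝ) < ((det2 u₁ u₂ : ℤ) : ℝ) := by exact_mod_cast hm
    have := mul_pos h1 z.im_pos
    positivity
  have ha0 : 0 ≤ a := Complex.normSq_nonneg _
  have hb0 : 0 ≤ b := Complex.normSq_nonneg _
  have hd1 : det2 u₂ (u₁ + u₂) = -det2 u₁ u₂ := by
    rw [det2_add_right, det2_self, det2_swap u₁ u₂]; ring
  have hd2 : det2 (u₁ + u₂) u₁ = -det2 u₁ u₂ := by
    rw [det2_add_left, det2_self, det2_swap u₁ u₂]; ring
  have hq1 : Qf u₂ (u₁ + u₂) (z : ℂ) = Q - b := by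
    rw [Qf_add_right, Qf_self, Qf_swap u₁ u₂]; ring
  have hq2 : Qf (u₁ + u₂) u₁ (z : ℂ) = Q - a := by
    rw [Qf_add_left, Qf_self, Qf_swap u₁ u₂]; ring
  have hs : SignType.sign (det2 u₁ u₂) = 1 := sign_pos hm
  have hs' : SignType.sign (-det2 u₁ u₂) = -1 := sign_neg (by linarith)
  have htri : tri u₁ u₂ z = ((SignType.sign Q : SignType) : ℤ)
      - ((SignType.sign (Q - b) : SignType) : ℤ) - ((SignType.sign (Q - a) : SignType) : ℤ) := by
    simp only [tri, F, hd1, hd2, hq1, hq2, hs, hs', ← hQ]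
    simp
    ring
  by_cases h1 : Q < 0
  · left
    rw [htri, sign_neg h1, sign_neg (by linarith : Q - b < 0), sign_neg (by linarith : Q - a < 0)]
    simp
  by_cases h2 : a < Q
  · left
    have hQpos : 0 < Q := lt_of_le_of_lt ha0 h2
    have h3 : Q < b := by
      by_contra hcon
      have hcon' := not_lt.mp hcon
      nlinarith
    rw [htri, sign_pos hQpos, sign_neg (by linarith : Q - b < 0), sign_pos (by linarith : 0 < Q - a)]
    simp
  by_cases h3 : b < Q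
  · left
    have hQpos : 0 < Q := lt_of_le_of_lt hb0 h3
    have h4 : Q < a := by
      by_contra hcon
      have hcon' := not_lt.mp hcon
      nlinarith
    rw [htri, sign_pos hQpos, sign_pos (by linarith : 0 < Q - b), sign_neg (by linarith : Q - a < 0)]
    simp
  · right
    exact ⟨not_lt.mp h1, not_lt.mp h2, not_lt.mp h3⟩

/-- the algebraic heart: in the closed triangle the three "sides" bound each other. -/
lemma side_bound {a b Q P κ : ℝ} (ha : κ ≤ a) (hb : κ ≤ b) (hc : κ ≤ a + b - 2 * Q)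
    (hab : a * b = Q ^ 2 + P) (hQ0 : 0 ≤ Q) (hQa : Q ≤ a) (hQb : Q ≤ b) :
    a * κ ≤ 3 * P ∧ b * κ ≤ 3 * P := by
  have hα : 0 ≤ a - Q := by linarith
  have hβ : 0 ≤ b - Q := by linarith
  have hkey : Q * (a + b - 2 * Q) + (a - Q) * (b - Q) = P := by nlinarith
  have h1 : 0 ≤ (a - Q) * (b - Q) := mul_nonneg hα hβ
  have h2 : 0 ≤ Q * (a + b - 2 * Q) := mul_nonneg hQ0 (by linarith)
  have h3 : Q * κ ≤ Q * (a + b - 2 * Q) := mul_le_mul_of_nonneg_left hc hQ0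
  have h4 : (a - Q) * κ ≤ (a - Q) * b := mul_le_mul_of_nonneg_left hb hα
  have h5 : (b - Q) * κ ≤ (b - Q) * a := mul_le_mul_of_nonneg_left ha hβ
  have h6 : (a - Q) * Q ≤ (a + b - 2 * Q) * Q := mul_le_mul_of_nonneg_right (by linarith) hQ0
  have h7 : (b - Q) * Q ≤ (a + b - 2 * Q) * Q := mul_le_mul_of_nonneg_right (by linarith) hQ0
  constructor <;> nlinarith

/-- **finiteness**: for a fixed point `z` and a fixed determinant `m > 0` only finitely many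
ideal triangles `(w₁, w₂, w₁ + w₂)` contain `z`. -/
lemma tri_coord_bound (z : ℍ) (m : ℤ) (hm : 0 < m) : ∃ K : ℝ, ∀ w₁ w₂ : Fin 2 → ℤ,
    det2 w₁ w₂ = m → tri w₁ w₂ z ≠ 1 → ∀ i, (w₁ i : ℝ) ^ 2 ≤ K ∧ (w₂ i : ℝ) ^ 2 ≤ K := by
  set y : ℝ := z.im with hy
  have hy0 : 0 < y := z.im_pos
  set κ : ℝ := min 1 (y ^ 2) with hκ
  have hκ0 : 0 < κ := lt_min one_pos (by positivity)
  set P : ℝ := ((m : ℝ) * y) ^ 2 with hP
  set M : ℝ := 3 * P / κ with hM
  set R : ℝ := Complex.normSq (z : ℂ) with hR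
  refine ⟨2 * M + (2 * R + 1) * (M / y ^ 2), ?_⟩
  intro w₁ w₂ hdet htri
  have hm' : 0 < det2 w₁ w₂ := by rw [hdet]; exact hm
  have hne : det2 w₁ w₂ ≠ 0 := hm'.ne'
  rcases tri_eq_one_or hm' z with h | ⟨hQ0, hQa, hQb⟩
  · exact absurd h htri
  have hzim : ((z : ℂ)).im = y := by rw [UpperHalfPlane.coe_im]
  have hw₁ : w₁ ≠ 0 := ne_zero_of_det2_left hne
  have hw₂ : w₂ ≠ 0 := ne_zero_of_det2_right hne
  have hw₃ : w₁ + w₂ ≠ 0 := by
    have : det2 (w₁ + w₂) w₁ ≠ 0 := by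
      rw [det2_add_left, det2_self, det2_swap w₁ w₂]
      simpa using hne
    exact ne_zero_of_det2_left this
  have ha := normSq_dd_ge hw₁ (z : ℂ) y hy0 (le_of_eq hzim.symm)
  have hb := normSq_dd_ge hw₂ (z : ℂ) y hy0 (le_of_eq hzim.symm)
  have hc := normSq_dd_ge hw₃ (z : ℂ) y hy0 (le_of_eq hzim.symm)
  rw [normSq_dd_add] at hc
  have hab := normSq_mul_eq w₁ w₂ z
  rw [hdet] at hab
  obtain ⟨hA, hB⟩ := side_bound ha hb hc hab hQ0 hQa hQb
  have hM1 : Complex.normSq (dd w₁ (z : ℂ)) ≤ M := by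
    rw [hM, le_div_iff₀ hκ0]
    exact hA
  have hM2 : Complex.normSq (dd w₂ (z : ℂ)) ≤ M := by
    rw [hM, le_div_iff₀ hκ0]
    exact hB
  intro i
  exact ⟨coord_sq_le (z : ℂ) y R M hy0 (le_of_eq hzim.symm) le_rfl hM1 i,
    coord_sq_le (z : ℂ) y R M hy0 (le_of_eq hzim.symm) le_rfl hM2 i⟩

/-- the standard triple transforms under `SL(2,ℤ)` like the side function. -/
lemma tri_smul_point (ε : SL(2,ℤ)) (u₁ u₂ : Fin 2 → ℤ) (z : ℍ) :
    tri u₁ u₂ (ε • z) = tri (ε⁻¹ • u₁) (ε⁻¹ • u₂) z := by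
  simp only [tri, F_smul_point, smul_add]

/-- `tri u₁ u₂ - 1` has finite orbit sums. -/
theorem orbitFinite_tri {u₁ u₂ : Fin 2 → ℤ} (hm : 0 < det2 u₁ u₂) :
    OrbitFinite SL(2,ℤ) (fun z => tri u₁ u₂ z - 1) := by
  intro z
  obtain ⟨K, hK⟩ := tri_coord_bound z (det2 u₁ u₂) hm
  let box : Set (Fin 2 → ℤ) := {u | ∀ i, (u i : ℝ) ^ 2 ≤ K}
  have hbox : (box ×ˢ box).Finite := (finite_box K).prod (finite_box K)
  refine Set.Finite.of_injOn (f := fun ε : SL(2,ℤ) => (ε⁻¹ • u₁, ε⁻¹ • u₂)) ?_ ?_ hbox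
  · intro ε hε
    simp only [Set.mem_ofPred_eq, ne_eq, sub_eq_zero] at hε
    rw [tri_smul_point] at hε
    have := hK (ε⁻¹ • u₁) (ε⁻¹ • u₂) (det2_smul _ _ _) hε
    exact ⟨fun i => (this i).1, fun i => (this i).2⟩
  · intro ε _ δ _ h
    simp only [Prod.mk.injEq] at h
    have h1 : (δ * ε⁻¹) • u₁ = u₁ := by
      rw [mul_smul, h.1, smul_inv_smul]
    have h2 : (δ * ε⁻¹) • u₂ = u₂ := by
      rw [mul_smul, h.2, smul_inv_smul]
    have := eq_one_of_fix hm.ne' h1 h2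
    have : δ = ε := by
      have h3 := congrArg (· * ε) this
      simpa using h3
    exact this.symm

/-- the homomorphism attached to the standard triple vanishes (positive determinant). -/
theorem D_tri_of_pos (Γ : Subgroup SL(2,ℤ)) {u₁ u₂ : Fin 2 → ℤ} (hm : 0 < det2 u₁ u₂) (z₀ : ℍ)
    (γ : Γ) : D Γ (tri u₁ u₂) z₀ (γ • z₀) = 0 := by
  have hof : OrbitFinite Γ (fun z => tri u₁ u₂ z - 1) := (orbitFinite_tri hm).subgroup Γ
  have hsplit : tri u₁ u₂ = (fun z => tri u₁ u₂ z - 1) + (fun _ : ℍ => (1 : ℤ)) := by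
    funext z
    simp
  rw [hsplit, D_add_fun hof.tame (Tame.const 1), D_eq_zero_of_orbitFinite hof, D_const, add_zero]

/-- the homomorphism attached to the standard triple vanishes. -/
theorem D_tri (Γ : Subgroup SL(2,ℤ)) {u₁ u₂ : Fin 2 → ℤ} (hm : det2 u₁ u₂ ≠ 0) (z₀ : ℍ)
    (γ : Γ) : D Γ (tri u₁ u₂) z₀ (γ • z₀) = 0 := by
  rcases lt_or_gt_of_ne hm with h | h
  · have h' : 0 < det2 u₂ u₁ := by rw [det2_swap u₁ u₂]; linarith
    have hneg : tri u₁ u₂ = -tri u₂ u₁ := by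
      funext z
      simp only [Pi.neg_apply]
      exact tri_swap u₂ u₁ z
    rw [hneg, D_neg_fun, D_tri_of_pos Γ h', neg_zero]
  · exact D_tri_of_pos Γ h z₀ γ

/-! ### proportional vectors -/

/-- nonzero integer vectors with vanishing determinant are proportional over `ℤ`. -/
lemma exists_smul_eq_of_det2_eq_zero {v v' : Fin 2 → ℤ} (hv : v ≠ 0) (hv' : v' ≠ 0)
    (h : det2 v v' = 0) : ∃ a b : ℤ, a ≠ 0 ∧ b ≠ 0 ∧ a • v = b • v' := by
  simp only [det2] at h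
  by_cases hp : v 0 = 0
  · have hq : v 1 ≠ 0 := by
      intro hq
      apply hv
      funext i
      fin_cases i <;> simp [hp, hq]
    have hr : v' 0 = 0 := by
      rw [hp] at h
      have : v 1 * v' 0 = 0 := by linarith
      exact (mul_eq_zero.mp this).resolve_left hq
    have hs : v' 1 ≠ 0 := by
      intro hs
      apply hv'
      funext i
      fin_cases i <;> simp [hr, hs]
    refine ⟨v' 1, v 1, hs, hq, ?_⟩
    funext i
    fin_cases i
    · simp [hp, hr]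
    · simp only [Fin.mk_one, Fin.isValue, Pi.smul_apply, smul_eq_mul]
      ring
  · have hr : v' 0 ≠ 0 := by
      intro hr
      rw [hr] at h
      have : v 0 * v' 1 = 0 := by linarith
      have hs : v' 1 = 0 := (mul_eq_zero.mp this).resolve_left hp
      apply hv'
      funext i
      fin_cases i <;> simp [hr, hs]
    refine ⟨v' 0, v 0, hr, hp, ?_⟩
    funext i
    fin_cases i
    · simp only [Fin.zero_eta, Fin.isValue, Pi.smul_apply, smul_eq_mul]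
      ring
    · simp only [Fin.mk_one, Fin.isValue, Pi.smul_apply, smul_eq_mul]
      linarith

/-- if `v₁` and `v₂` are proportional then `F v₁ v₂ = 0` and `F v₂ v₃ = - F v₃ v₁`. -/
lemma F_of_det2_eq_zero {v₁ v₂ : Fin 2 → ℤ} (h₁ : v₁ ≠ 0) (h₂ : v₂ ≠ 0) (h : det2 v₁ v₂ = 0)
    (v₃ : Fin 2 → ℤ) (z : ℍ) : F v₂ v₃ z = -F v₃ v₁ z := by
  obtain ⟨a, b, ha, hb, hab⟩ := exists_smul_eq_of_det2_eq_zero h₁ h₂ h
  rw [← F_smul_left b hb v₂ v₃ z, ← hab, F_smul_left a ha, F_swap v₁ v₃]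
  ring

/-- degenerate case of (J2). -/
lemma J2_of_det2_eq_zero (Γ : Subgroup SL(2,ℤ)) {v₁ v₂ : Fin 2 → ℤ} (h₁ : v₁ ≠ 0) (h₂ : v₂ ≠ 0)
    (h : det2 v₁ v₂ = 0) (v₃ : Fin 2 → ℤ) (z₀ : ℍ) (γ : Γ) :
    D Γ (F v₁ v₂) z₀ (γ • z₀) + D Γ (F v₂ v₃) z₀ (γ • z₀) + D Γ (F v₃ v₁) z₀ (γ • z₀) = 0 := by
  have e1 : D Γ (F v₁ v₂) z₀ (γ • z₀) = 0 := by
    rw [D_congr (f := fun _ : ℍ => (0 : ℤ)) (fun z => F_eq_zero_of_det2 h z), D_const]
  have e2 : D Γ (F v₂ v₃) z₀ (γ • z₀) = -D Γ (F v₃ v₁) z₀ (γ • z₀) := by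
    rw [← D_neg_fun]
    exact D_congr (fun z => by simpa using F_of_det2_eq_zero h₁ h₂ h v₃ z) _ _
  rw [e1, e2]
  ring

/-! ### the triangle relation -/

/-- **(J2), the triangle relation.**  For nonzero integer vectors `v₁ v₂ v₃` the homomorphisms
`γ ↦ D Γ (F vᵢ vⱼ) z₀ (γ • z₀)` of the three oriented sides of the ideal triangle add up to `0`. -/
theorem J2 (Γ : Subgroup SL(2,ℤ)) {v₁ v₂ v₃ : Fin 2 → ℤ} (h₁ : v₁ ≠ 0) (h₂ : v₂ ≠ 0)
    (h₃ : v₃ ≠ 0) (z₀ : ℍ) (γ : Γ) :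
    D Γ (F v₁ v₂) z₀ (γ • z₀) + D Γ (F v₂ v₃) z₀ (γ • z₀) + D Γ (F v₃ v₁) z₀ (γ • z₀) = 0 := by
  by_cases h12 : det2 v₁ v₂ = 0
  · exact J2_of_det2_eq_zero Γ h₁ h₂ h12 v₃ z₀ γ
  by_cases h23 : det2 v₂ v₃ = 0
  · have := J2_of_det2_eq_zero Γ h₂ h₃ h23 v₁ z₀ γ
    linarith
  by_cases h31 : det2 v₃ v₁ = 0
  · have := J2_of_det2_eq_zero Γ h₃ h₁ h31 v₂ z₀ γ
    linarith
  -- Cramer: `d • v₃ = a • v₁ + b • v₂`
  set d : ℤ := det2 v₁ v₂ with hd
  set a : ℤ := det2 v₃ v₂ with ha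
  set b : ℤ := det2 v₁ v₃ with hb
  have ha0 : a ≠ 0 := by
    rw [ha, det2_swap v₂ v₃]
    simpa using h23
  have hb0 : b ≠ 0 := by
    rw [hb, det2_swap v₃ v₁]
    simpa using h31
  have hcr : d • v₃ = a • v₁ + b • v₂ := by
    funext i
    fin_cases i
    · simp only [hd, ha, hb, det2, Fin.zero_eta, Fin.isValue, Pi.smul_apply, smul_eq_mul,
        Pi.add_apply]
      ring
    · simp only [hd, ha, hb, det2, Fin.mk_one, Fin.isValue, Pi.smul_apply, smul_eq_mul,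
        Pi.add_apply]
      ring
  set u₁ : Fin 2 → ℤ := a • v₁ with hu₁
  set u₂ : Fin 2 → ℤ := b • v₂ with hu₂
  have hdet : det2 u₁ u₂ ≠ 0 := by
    rw [hu₁, hu₂, det2_smul_left, det2_smul_right]
    exact mul_ne_zero ha0 (mul_ne_zero hb0 h12)
  have hF : ∀ z, (F v₁ v₂ + F v₂ v₃ + F v₃ v₁) z = tri u₁ u₂ z := by
    intro z
    simp only [Pi.add_apply, tri]
    rw [← hcr, hu₁, hu₂, F_smul_left a ha0, F_smul_right b hb0, F_smul_left b hb0,
      F_smul_right d h12, F_smul_left d h12, F_smul_right a ha0]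
  have ht12 := tame_F_subgroup Γ v₁ v₂
  have ht23 := tame_F_subgroup Γ v₂ v₃
  have ht31 := tame_F_subgroup Γ v₃ v₁
  rw [← D_add_fun ht12 ht23, ← D_add_fun (ht12.add ht23) ht31, D_congr hF]
  exact D_tri Γ hdet z₀ γ

end Fermat.Agent.ES.PD.Triangle23
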