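/-
Program L, chapter (I2), plan C (helper18), brick PD-H: the Farey path lemma and Poincaré duality.

* `farey_path`: if the intersection numbers of a fixed loop `γ*` with all Farey edges are the
  differences of a "potential" `Fc` on cusps, then its intersection numbers with ALL geodesics
  between cusps are the differences of `Fc` (Euclid + triangle additivity J2).
* `potential`: for a parabolic homomorphism `φ : Γ → ℤ` a `φ`-equivariant potential on cusps.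
* `exists_dual` (PD1): every parabolic `φ` is `-¼ I(γ*, ·)` for some `γ* ∈ Γ`.
(Mathlib + Chain18 + Triangle23.)
-/
import Mathlib
import Fermat.Agent.ES.PD.Chain18
import Fermat.Agent.ES.PD.Triangle23
import Fermat.Prelude.Def_ModularCurve_PeriodMap

set_option autoImplicit false

open Matrix MatrixGroups UpperHalfPlane ComplexConjugate ModularGroup

namespace Fermat.Agent.ES.PD.Dual18

open Fermat.Agent.ES.PD.SideFn18 Fermat.Agent.ES.PD.TameF18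
open Fermat.Agent.ES.PD.TameSum18 hiding S
open Fermat.Agent.ES.PD.Flow18 Fermat.Agent.ES.PD.Chain18 Fermat.Agent.ES.PD.Triangle23

/-! ### small matrix facts -/

lemma T_zpow_apply (b : ℤ) : ((T ^ b : SL(2,ℤ)) 0 0 : ℤ) = 1 ∧ ((T ^ b : SL(2,ℤ)) 0 1 : ℤ) = b ∧
    ((T ^ b : SL(2,ℤ)) 1 0 : ℤ) = 0 ∧ ((T ^ b : SL(2,ℤ)) 1 1 : ℤ) = 1 := by
  refine ⟨?_, ?_, ?_, ?_⟩ <;>
  · show ((T ^ b : SL(2,ℤ)) : Matrix (Fin 2) (Fin 2) ℤ) _ _ = _
    rw [coe_T_zpow]; rfl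

lemma T_zpow_smul_e1 (b : ℤ) : (T ^ b : SL(2,ℤ)) • e1 = e1 := by
  obtain ⟨h00, h01, h10, h11⟩ := T_zpow_apply b
  rw [smul_e1, h00, h10]; rfl

lemma T_zpow_smul_e2 (b : ℤ) : (T ^ b : SL(2,ℤ)) • e2 = ![b, 1] := by
  obtain ⟨h00, h01, h10, h11⟩ := T_zpow_apply b
  rw [smul_e2, h01, h11]

lemma S_smul_e1 : (S : SL(2,ℤ)) • e1 = e2 := by
  obtain ⟨S00, S01, S10, S11⟩ := S_apply
  rw [smul_e1, S00, S10]; rfl

lemma smul_e1_ne_zero (g : SL(2,ℤ)) : g • e1 ≠ 0 := by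
  intro h
  have h1 : g⁻¹ • (g • e1) = g⁻¹ • (0 : Fin 2 → ℤ) := by rw [h]
  rw [inv_smul_smul, smul_zero] at h1
  have := congrFun h1 0
  simp [e1] at this

lemma smul_e2_ne_zero (g : SL(2,ℤ)) : g • e2 ≠ 0 := by
  intro h
  have h1 : g⁻¹ • (g • e2) = g⁻¹ • (0 : Fin 2 → ℤ) := by rw [h]
  rw [inv_smul_smul, smul_zero] at h1
  have := congrFun h1 1
  simp [e2] at this

/-- upper triangular elements of `SL(2,ℤ)` are `± T^m`. -/
lemma eq_T_zpow_or_neg (k : SL(2,ℤ)) (h : k 1 0 = 0) : ∃ m : ℤ, k = T ^ m ∨ k = -(T ^ m) := by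
  have hdet := det_eq_one' k
  rw [h, mul_zero, sub_zero] at hdet
  rcases Int.eq_one_or_neg_one_of_mul_eq_one' hdet with ⟨h1, h2⟩ | ⟨h1, h2⟩
  · refine ⟨k 0 1, Or.inl ?_⟩
    obtain ⟨t00, t01, t10, t11⟩ := T_zpow_apply (k 0 1)
    exact sl2_ext (by rw [t00, h1]) (by rw [t01]) (by rw [t10, h]) (by rw [t11, h2])
  · refine ⟨-(k 0 1), Or.inr ?_⟩
    obtain ⟨t00, t01, t10, t11⟩ := T_zpow_apply (-(k 0 1))
    refine sl2_ext ?_ ?_ ?_ ?_
    · rw [show ((-(T ^ (-(k 0 1))) : SL(2,ℤ)) 0 0 : ℤ) = -((T ^ (-(k 0 1)) : SL(2,ℤ)) 0 0) from rfl,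
        t00, h1]
    · rw [show ((-(T ^ (-(k 0 1))) : SL(2,ℤ)) 0 1 : ℤ) = -((T ^ (-(k 0 1)) : SL(2,ℤ)) 0 1) from rfl,
        t01, neg_neg]
    · rw [show ((-(T ^ (-(k 0 1))) : SL(2,ℤ)) 1 0 : ℤ) = -((T ^ (-(k 0 1)) : SL(2,ℤ)) 1 0) from rfl,
        t10, h, neg_zero]
    · rw [show ((-(T ^ (-(k 0 1))) : SL(2,ℤ)) 1 1 : ℤ) = -((T ^ (-(k 0 1)) : SL(2,ℤ)) 1 1) from rfl,
        t11, h2]

lemma det2_smul_e1 (g g' : SL(2,ℤ)) : det2 (g • e1) (g' • e1) = (g⁻¹ * g') 1 0 := by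
  have h := det2_smul g⁻¹ (g • e1) (g' • e1)
  rw [inv_smul_smul, ← mul_smul, smul_e1] at h
  rw [← h]
  simp [det2, e1]

/-! ### the Farey path lemma -/

section FareyPath

variable (Γ : Subgroup SL(2,ℤ)) (γs : Γ) (Fc : SL(2,ℤ) → ℤ) (κ : ℤ)

lemma Fc_T_zpow (hT : ∀ g, Fc (g * T) = Fc g) (g : SL(2,ℤ)) (m : ℤ) : Fc (g * T ^ m) = Fc g := by
  induction m using Int.induction_on with
  | zero => simp
  | succ n ih => rw [_root_.zpow_add_one, ← mul_assoc, hT, ih]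
  | pred n ih =>
    have := hT (g * T ^ (-(n : ℤ) - 1))
    rw [mul_assoc, ← _root_.zpow_add_one, sub_add_cancel] at this
    rw [← this, ih]

/-- **Farey path lemma.** -/
theorem farey_path (hT : ∀ g, Fc (g * T) = Fc g) (hneg : ∀ g, Fc (-g) = Fc g)
    (hE : ∀ g, D Γ (F (g • e1) (g • e2)) z0 (γs • z0) = κ * (Fc (g * S) - Fc g))
    (g g' : SL(2,ℤ)) :
    D Γ (F (g • e1) (g' • e1)) z0 (γs • z0) = κ * (Fc g' - Fc g) := by
  obtain ⟨n, hn⟩ : ∃ n : ℕ, (det2 (g • e1) (g' • e1)).natAbs = n := ⟨_, rfl⟩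
  induction n using Nat.strong_induction_on generalizing g g' with
  | _ n ih =>
    set k := g⁻¹ * g' with hk
    have hg' : g' = g * k := by rw [hk, mul_inv_cancel_left]
    have hdet : det2 (g • e1) (g' • e1) = k 1 0 := det2_smul_e1 g g'
    by_cases h0 : k 1 0 = 0
    · -- the same cusp
      obtain ⟨m, hm | hm⟩ := eq_T_zpow_or_neg k h0
      · have hF : Fc g' = Fc g := by rw [hg', hm, Fc_T_zpow Fc hT]
        rw [hF, sub_self, mul_zero]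
        rw [D_congr (f := fun _ => (0 : ℤ)) (fun z => F_eq_zero_of_det2 (by rw [hdet, h0]) z), D_const]
      · have hF : Fc g' = Fc g := by rw [hg', hm, mul_neg, hneg, Fc_T_zpow Fc hT]
        rw [hF, sub_self, mul_zero]
        rw [D_congr (f := fun _ => (0 : ℤ)) (fun z => F_eq_zero_of_det2 (by rw [hdet, h0]) z), D_const]
    · -- Euclid step
      set a := k 0 0 with ha
      set c := k 1 0 with hc
      set b := a / c with hb
      set g'' := g * T ^ b * S with hg''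
      have h1 : g • e1 = (g * T ^ b) • e1 := by rw [mul_smul, T_zpow_smul_e1]
      have h2 : g'' • e1 = (g * T ^ b) • e2 := by rw [hg'', mul_smul, S_smul_e1]
      -- the first edge is a Farey edge
      have hfirst : D Γ (F (g • e1) (g'' • e1)) z0 (γs • z0) = κ * (Fc g'' - Fc g) := by
        rw [h1, h2, hE, Fc_T_zpow Fc hT]
      -- the second pair has smaller determinant
      have hdet2 : det2 (g'' • e1) (g' • e1) = b * c - a := by
        have e1' : g'' • e1 = g • ![b, 1] := by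
          rw [h2, mul_smul, T_zpow_smul_e2]
        have e2' : g' • e1 = g • ![a, c] := by
          rw [hg', mul_smul, smul_e1]
        rw [e1', e2', det2_smul]
        simp [det2]
      have hlt : (det2 (g'' • e1) (g' • e1)).natAbs < n := by
        rw [← hn, hdet, hdet2]
        have hmod : a - b * c = a % c := by
          rw [hb, Int.emod_def]; ring
        have h3 : b * c - a = -(a % c) := by rw [← hmod]; ring
        rw [h3, Int.natAbs_neg]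
        have h4 := Int.emod_nonneg a h0
        have h5 := Int.emod_lt_abs a h0
        have h6 := Int.natAbs_lt_natAbs_of_nonneg_of_lt h4 h5
        rwa [Int.natAbs_abs] at h6
      have hsecond := ih _ hlt g'' g' rfl
      -- triangle additivity
      have hJ := J2 Γ (smul_e1_ne_zero g) (smul_e1_ne_zero g'') (smul_e1_ne_zero g') z0 γs
      have hswap : D Γ (F (g' • e1) (g • e1)) z0 (γs • z0)
          = - D Γ (F (g • e1) (g' • e1)) z0 (γs • z0) := by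
        rw [← D_neg_fun]
        exact D_congr (fun z => by simp [F_swap (g • e1) (g' • e1) z]) _ _
      rw [hswap, hfirst, hsecond] at hJ
      linarith

end FareyPath

/-! ### the potential of a parabolic homomorphism -/

/-- the upper triangular subgroup `{± T^m}` (the stabiliser of the cusp `∞`). -/
def Pinf : Subgroup SL(2,ℤ) where
  carrier := {k | k 1 0 = 0}
  one_mem' := by simp
  mul_mem' := by
    intro a b ha hb
    simp only [Set.mem_ofPred_eq] at ha hb ⊢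
    rw [Matrix.SpecialLinearGroup.coe_mul, Matrix.mul_apply, Fin.sum_univ_two, ha, hb]
    ring
  inv_mem' := by
    intro a ha
    simp only [Set.mem_ofPred_eq] at ha ⊢
    rw [Matrix.SpecialLinearGroup.coe_inv, Matrix.adjugate_fin_two]
    simp [ha]

lemma mem_Pinf {k : SL(2,ℤ)} : k ∈ Pinf ↔ k 1 0 = 0 := Iff.rfl

lemma T_mem_Pinf : T ∈ Pinf := by
  rw [mem_Pinf]
  have := (T_zpow_apply 1).2.2.1
  rwa [zpow_one] at this

lemma neg_one_mem_Pinf : (-1 : SL(2,ℤ)) ∈ Pinf := by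
  rw [mem_Pinf]; simp

lemma trace_conj_sq (g : SL(2,ℤ)) {k : SL(2,ℤ)} (hk : k ∈ Pinf) :
    ((g * k * g⁻¹ : SL(2,ℤ)) : Matrix (Fin 2) (Fin 2) ℤ).trace ^ 2 = 4 := by
  have h1 : ((g * k * g⁻¹ : SL(2,ℤ)) : Matrix (Fin 2) (Fin 2) ℤ).trace
      = (k : Matrix (Fin 2) (Fin 2) ℤ).trace := by
    rw [Matrix.SpecialLinearGroup.coe_mul, Matrix.trace_mul_comm, ← Matrix.SpecialLinearGroup.coe_mul,
      ← mul_assoc, inv_mul_cancel, one_mul]
  rw [h1, Matrix.trace_fin_two]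
  have hdet := det_eq_one' k
  rw [mem_Pinf.mp hk, mul_zero, sub_zero] at hdet
  rcases Int.eq_one_or_neg_one_of_mul_eq_one' hdet with ⟨h1, h2⟩ | ⟨h1, h2⟩
  · rw [h1, h2]; norm_num
  · rw [h1, h2]; norm_num

section Potential

variable (Γ : Subgroup SL(2,ℤ)) (φ : Additive Γ →+ ℤ)

lemma potential_key (hφ : ModularCurve.Period.IsParabolicHom Γ φ) (g r : SL(2,ℤ)) (h h' : Γ)
    (k k' : SL(2,ℤ)) (hk : k ∈ Pinf) (hk' : k' ∈ Pinf)
    (e : r = (h : SL(2,ℤ)) * g * k) (e' : r = (h' : SL(2,ℤ)) * g * k') :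
    φ (Additive.ofMul h) = φ (Additive.ofMul h') := by
  have h1 : ((h'⁻¹ * h : Γ) : SL(2,ℤ)) = g * (k' * k⁻¹) * g⁻¹ := by
    have : (h : SL(2,ℤ)) * g * k = (h' : SL(2,ℤ)) * g * k' := by rw [← e, ← e']
    have h2 : (h : SL(2,ℤ)) = (h' : SL(2,ℤ)) * g * k' * k⁻¹ * g⁻¹ := by
      rw [← this]; group
    rw [Subgroup.coe_mul, Subgroup.coe_inv, h2]; group
  have h2 : φ (Additive.ofMul (h'⁻¹ * h)) = 0 := by
    apply hφ
    rw [h1]
    exact trace_conj_sq g (Pinf.mul_mem hk' (Pinf.inv_mem hk))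
  rw [ofMul_mul, map_add, ofMul_inv, map_neg] at h2
  linarith

/-- a `φ`-equivariant potential on the cusps. -/
noncomputable def potential (g : SL(2,ℤ)) : ℤ :=
  - φ (Additive.ofMul (⟨(DoubleCoset.mk_out_eq_mul Γ Pinf g).choose,
      (DoubleCoset.mk_out_eq_mul Γ Pinf g).choose_spec.choose_spec.1⟩ : Γ))

lemma potential_spec (g : SL(2,ℤ)) : ∃ (h : Γ) (k : SL(2,ℤ)), k ∈ Pinf ∧
    (DoubleCoset.mk Γ Pinf g).out = (h : SL(2,ℤ)) * g * k ∧ potential Γ φ g = - φ (Additive.ofMul h) := by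
  have hs := (DoubleCoset.mk_out_eq_mul Γ Pinf g).choose_spec.choose_spec
  exact ⟨⟨_, hs.1⟩, _, hs.2.1, hs.2.2, rfl⟩

lemma potential_smul (hφ : ModularCurve.Period.IsParabolicHom Γ φ) (γ : Γ) (g : SL(2,ℤ)) :
    potential Γ φ ((γ : SL(2,ℤ)) * g) = φ (Additive.ofMul γ) + potential Γ φ g := by
  obtain ⟨h, k, hk, e, hp⟩ := potential_spec Γ φ g
  obtain ⟨h₁, k₁, hk₁, e₁, hp₁⟩ := potential_spec Γ φ ((γ : SL(2,ℤ)) * g)
  have hq : DoubleCoset.mk Γ Pinf ((γ : SL(2,ℤ)) * g) = DoubleCoset.mk Γ Pinf g := by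
    rw [eq_comm, DoubleCoset.eq]
    exact ⟨γ, γ.2, 1, Pinf.one_mem, by rw [mul_one]⟩
  rw [hq] at e₁
  have e₁' : (DoubleCoset.mk Γ Pinf g).out = ((h₁ * γ : Γ) : SL(2,ℤ)) * g * k₁ := by
    rw [e₁, Subgroup.coe_mul]; group
  have := potential_key Γ φ hφ g _ (h₁ * γ) h k₁ k hk₁ hk e₁' e
  rw [ofMul_mul, map_add] at this
  rw [hp, hp₁]
  linarith

lemma potential_mul_Pinf (hφ : ModularCurve.Period.IsParabolicHom Γ φ) (g : SL(2,ℤ)) {k₀ : SL(2,ℤ)}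
    (hk₀ : k₀ ∈ Pinf) : potential Γ φ (g * k₀) = potential Γ φ g := by
  obtain ⟨h, k, hk, e, hp⟩ := potential_spec Γ φ g
  obtain ⟨h₁, k₁, hk₁, e₁, hp₁⟩ := potential_spec Γ φ (g * k₀)
  have hq : DoubleCoset.mk Γ Pinf (g * k₀) = DoubleCoset.mk Γ Pinf g := by
    rw [eq_comm, DoubleCoset.eq]
    exact ⟨1, Γ.one_mem, k₀, hk₀, by rw [one_mul]⟩
  rw [hq] at e₁
  have e₁' : (DoubleCoset.mk Γ Pinf g).out = (h₁ : SL(2,ℤ)) * g * (k₀ * k₁) := by
    rw [e₁]; group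
  have := potential_key Γ φ hφ g _ h₁ h (k₀ * k₁) k (Pinf.mul_mem hk₀ hk₁) hk e₁' e
  rw [hp, hp₁, this]

lemma potential_mul_T (hφ : ModularCurve.Period.IsParabolicHom Γ φ) (g : SL(2,ℤ)) :
    potential Γ φ (g * T) = potential Γ φ g :=
  potential_mul_Pinf Γ φ hφ g T_mem_Pinf

lemma potential_neg (hφ : ModularCurve.Period.IsParabolicHom Γ φ) (g : SL(2,ℤ)) :
    potential Γ φ (-g) = potential Γ φ g := by
  have := potential_mul_Pinf Γ φ hφ g neg_one_mem_Pinf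
  rwa [mul_neg, mul_one] at this

end Potential

/-! ### Poincaré duality (PD1) -/

section Dual

variable (Γ : Subgroup SL(2,ℤ)) (φ : Additive Γ →+ ℤ)

/-- the Kirchhoff flow of a potential, on `X = SL(2,ℤ) ⧸ Γ` (`x_g = mk g⁻¹`). -/
noncomputable def uFlow (hφ : ModularCurve.Period.IsParabolicHom Γ φ) : SL(2,ℤ) ⧸ Γ → ℤ :=
  fun x => Quotient.liftOn' x (fun a => potential Γ φ (a⁻¹ * S) - potential Γ φ a⁻¹) (by
    intro a b hab
    rw [QuotientGroup.leftRel_apply] at hab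
    have hb : b⁻¹ = ((⟨a⁻¹ * b, hab⟩ : Γ)⁻¹ : Γ) * a⁻¹ := by
      show b⁻¹ = (a⁻¹ * b)⁻¹ * a⁻¹
      group
    show potential Γ φ (a⁻¹ * S) - potential Γ φ a⁻¹ = potential Γ φ (b⁻¹ * S) - potential Γ φ b⁻¹
    rw [hb, mul_assoc, potential_smul Γ φ hφ, potential_smul Γ φ hφ]
    ring)

lemma uFlow_mk (hφ : ModularCurve.Period.IsParabolicHom Γ φ) (a : SL(2,ℤ)) :
    uFlow Γ φ hφ ((a : SL(2,ℤ)) : SL(2,ℤ) ⧸ Γ) = potential Γ φ (a⁻¹ * S) - potential Γ φ a⁻¹ := rfl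

lemma uFlow_sig (hφ : ModularCurve.Period.IsParabolicHom Γ φ) (x : SL(2,ℤ) ⧸ Γ) :
    uFlow Γ φ hφ (sigX Γ x) = - uFlow Γ φ hφ x := by
  induction x using QuotientGroup.induction_on with
  | H a =>
    show uFlow Γ φ hφ (((S⁻¹ * a : SL(2,ℤ)) : SL(2,ℤ)) : SL(2,ℤ) ⧸ Γ) = _
    rw [uFlow_mk, uFlow_mk, _root_.mul_inv_rev, inv_inv, mul_assoc, S_mul_S, mul_neg, mul_one,
      potential_neg Γ φ hφ]
    ring

lemma uFlow_tau (hφ : ModularCurve.Period.IsParabolicHom Γ φ) (x : SL(2,ℤ) ⧸ Γ) :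
    uFlow Γ φ hφ x + uFlow Γ φ hφ (tauX Γ x) + uFlow Γ φ hφ (tauX Γ (tauX Γ x)) = 0 := by
  induction x using QuotientGroup.induction_on with
  | H a =>
    show uFlow Γ φ hφ ((a : SL(2,ℤ)) : SL(2,ℤ) ⧸ Γ)
      + uFlow Γ φ hφ (((tau⁻¹ * a : SL(2,ℤ)) : SL(2,ℤ)) : SL(2,ℤ) ⧸ Γ)
      + uFlow Γ φ hφ (((tau⁻¹ * (tau⁻¹ * a) : SL(2,ℤ)) : SL(2,ℤ)) : SL(2,ℤ) ⧸ Γ) = 0
    rw [uFlow_mk, uFlow_mk, uFlow_mk]
    have hTi : (T⁻¹ : SL(2,ℤ)) ∈ Pinf := Pinf.inv_mem T_mem_Pinf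
    have h5 : tau * tau = tau⁻¹ := by
      rw [eq_inv_iff_mul_eq_one, ← pow_two, ← pow_succ]; exact tau_cube
    have A1 : (tau⁻¹ * a)⁻¹ = (a⁻¹ * S) * T⁻¹ := by
      rw [_root_.mul_inv_rev, inv_inv, mul_assoc]; rfl
    have A2 : (tau⁻¹ * (tau⁻¹ * a))⁻¹ = ((tau⁻¹ * a)⁻¹ * S) * T⁻¹ := by
      rw [_root_.mul_inv_rev (tau⁻¹) (tau⁻¹ * a), inv_inv, mul_assoc]; rfl
    have A3 : (tau⁻¹ * (tau⁻¹ * a))⁻¹ * S = a⁻¹ * T := by
      rw [_root_.mul_inv_rev, _root_.mul_inv_rev, inv_inv, mul_assoc, mul_assoc, ← mul_assoc tau tau S,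
        h5, tau_inv_mul_S]
    have B1 : potential Γ φ ((tau⁻¹ * a)⁻¹) = potential Γ φ (a⁻¹ * S) := by
      rw [A1, potential_mul_Pinf Γ φ hφ _ hTi]
    have B2 : potential Γ φ ((tau⁻¹ * (tau⁻¹ * a))⁻¹) = potential Γ φ ((tau⁻¹ * a)⁻¹ * S) := by
      rw [A2, potential_mul_Pinf Γ φ hφ _ hTi]
    have B3 : potential Γ φ ((tau⁻¹ * (tau⁻¹ * a))⁻¹ * S) = potential Γ φ a⁻¹ := by
      rw [A3, potential_mul_T Γ φ hφ]
    rw [B1, B2, B3]
    ring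

open Classical in
/-- **(PD1)**: every parabolic homomorphism is `-¼` of the intersection number with some loop. -/
theorem exists_dual [Γ.FiniteIndex] (hneg : (-1 : SL(2,ℤ)) ∈ Γ)
    (hφ : ModularCurve.Period.IsParabolicHom Γ φ) :
    ∃ γs : Γ, ∀ g g' : SL(2,ℤ),
      D Γ (F (g • e1) (g' • e1)) z0 (γs • z0) = -4 * (potential Γ φ g' - potential Γ φ g) := by
  have : Fintype (SL(2,ℤ) ⧸ Γ) := Fintype.ofFinite _
  have hmem := kirchhoff_mem (sigX Γ) (tauX Γ) (sigX_sigX Γ hneg) (tauX_cube Γ)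
    (((1 : SL(2,ℤ)) : SL(2,ℤ)) : SL(2,ℤ) ⧸ Γ) (exists_endpt_eq Γ) (uFlow Γ φ hφ)
    (uFlow_sig Γ φ hφ) (uFlow_tau Γ φ hφ)
  obtain ⟨w, hw, hfl⟩ := hmem
  have hwΓ : val w ∈ Γ := (endpt_eq_base_iff Γ w).mp hw
  refine ⟨⟨val w, hwΓ⟩, ?_⟩
  apply farey_path Γ ⟨val w, hwΓ⟩ (potential Γ φ) (-4) (potential_mul_T Γ φ hφ)
    (potential_neg Γ φ hφ)
  intro g
  have hc := chain_formula Γ hneg g w 1
  rw [one_smul, one_mul, inv_one] at hc
  rw [Subgroup.smul_def]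
  show D Γ (F (g • e1) (g • e2)) z0 (val w • z0) = _
  rw [hc, hfl, uFlow_mk, inv_inv]

/-- (PD1) in the form used later. -/
theorem exists_dual' [Γ.FiniteIndex] (hneg : (-1 : SL(2,ℤ)) ∈ Γ)
    (hφ : ModularCurve.Period.IsParabolicHom Γ φ) :
    ∃ γs : Γ, ∀ δ : Γ,
      D Γ (F e1 ((δ : SL(2,ℤ)) • e1)) z0 (γs • z0) = -4 * φ (Additive.ofMul δ) := by
  obtain ⟨γs, h⟩ := exists_dual Γ φ hneg hφ
  refine ⟨γs, fun δ => ?_⟩
  have := h 1 δ
  rw [one_smul] at this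
  rw [this]
  have h2 := potential_smul Γ φ hφ δ 1
  rw [mul_one] at h2
  rw [h2]
  ring

end Dual

end Fermat.Agent.ES.PD.Dual18
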