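/-
Program L, chapter (I2), plan C (helper18), brick PD-F (helper23): parabolic elements have zero
tame orbit sum against the side function of a pair of `Γ`-equivalent cusps.

`D_parabolic`: for `Γ ≤ SL(2,ℤ)`, `π δ ∈ Γ` with `(tr π)² = 4`,
`D Γ (F e₁ (δ • e₁)) z₀ (π • z₀) = 0`.

Route: conjugate `Γ` inside `SL(2,ℤ)` so that `π` becomes upper triangular (`π • z = z + n`);
decompose `Γ = ⊔_q t_q ⟨π⟩`; on each coset the sum over `k ∈ ℤ` telescopes, and the limits of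
`F u u' (z + k n)` at `k → ±∞` are explicit (`F_far`): the coset contributes
`2 sign(n) ([u₁ = 0] - [u'₁ = 0])`; the two indicator functions on `Γ ⧸ ⟨π⟩` have finite support
(deduced from the tameness of `F`) and differ by the permutation `q ↦ δ⁻¹ q`.
(Mathlib + TameSum18 + SideFn18 + TameF18.)
-/
import Mathlib
import Fermat.Agent.ES.PD.TameF18

set_option autoImplicit false

open Matrix MatrixGroups UpperHalfPlane Function

namespace Fermat.Agent.ES.PD.ParabolicZero23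

open Fermat.Agent.ES.PD.SideFn18 Fermat.Agent.ES.PD.TameSum18 Fermat.Agent.ES.PD.TameF18

/-! ### 1. telescoping sums over `ℤ` -/

/-- the step function `sign` with `st 0 = 1`. -/
def st (k : ℤ) : ℤ := if 0 ≤ k then 1 else -1

lemma finsum_st : ∑ᶠ k : ℤ, (st (k + 1) - st k) = 2 := by
  rw [finsum_eq_single _ (-1)]
  · simp [st]
  · intro k hk
    simp only [st]
    split_ifs <;> omega

/-- a function on `ℤ` equal to `a * st k + c` for `|k|` large has telescoping sum `2 a`. -/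
lemma telescope (φ : ℤ → ℤ) (K a c : ℤ) (h : ∀ k : ℤ, K ≤ |k| → φ k = a * st k + c) :
    ∑ᶠ k : ℤ, (φ (k + 1) - φ k) = 2 * a := by
  set ψ : ℤ → ℤ := fun k => φ k - (a * st k + c) with hψ
  have hsupp : (support ψ).Finite := by
    refine (Set.finite_Ioo (-K) K).subset ?_
    intro k hk
    rw [Function.mem_support] at hk
    rw [Set.mem_Ioo, ← abs_lt]
    by_contra hcon
    exact hk (by simp only [hψ]; rw [h k (not_lt.mp hcon)]; ring)
  have hsupp1 : (support fun k => ψ (k + 1)).Finite := by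
    have := hsupp.preimage (Equiv.addRight (1 : ℤ)).injective.injOn
    refine this.subset ?_
    intro k hk
    simpa using hk
  have hst : (support fun k : ℤ => a * (st (k + 1) - st k)).Finite := by
    refine (Set.finite_singleton (-1 : ℤ)).subset ?_
    intro k hk
    rw [Function.mem_support] at hk
    rw [Set.mem_singleton_iff]
    by_contra hcon
    apply hk
    simp only [st]
    split_ifs <;> omega
  have h1 : (fun k => φ (k + 1) - φ k)
      = fun k => (ψ (k + 1) - ψ k) + a * (st (k + 1) - st k) := by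
    funext k
    simp only [hψ]
    ring
  rw [h1, finsum_add_distrib (HasFiniteSupport.fun_sub hsupp1 hsupp) hst,
    finsum_sub_distrib hsupp1 hsupp, ← mul_finsum, finsum_st]
  have : ∑ᶠ k : ℤ, ψ (k + 1) = ∑ᶠ k : ℤ, ψ k :=
    finsum_comp_equiv (Equiv.addRight (1 : ℤ)) (f := ψ)
  rw [this]
  ring

/-! ### 2. signs -/

lemma sign_intCast_real (t : ℤ) : SignType.sign (t : ℝ) = SignType.sign t := by
  rcases lt_trichotomy t 0 with h | h | h
  · rw [sign_neg h, sign_neg (by exact_mod_cast h)]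
  · subst h; simp
  · rw [sign_pos h, sign_pos (by exact_mod_cast h)]

lemma sign_sub_of_abs_lt {a b : ℝ} (h : |b| < |a|) : SignType.sign (a - b) = SignType.sign a := by
  have h1 := le_abs_self b
  have h2 := neg_abs_le b
  rcases lt_trichotomy a 0 with ha | ha | ha
  · rw [abs_of_neg ha] at h
    rw [sign_neg ha, sign_neg (by linarith)]
  · subst ha
    rw [abs_zero] at h
    exact absurd h (not_lt.mpr (abs_nonneg b))
  · rw [abs_of_pos ha] at h
    rw [sign_pos ha, sign_pos (by linarith)]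

lemma sign_add_of_abs_lt {a b : ℝ} (h : |b| < |a|) : SignType.sign (b + a) = SignType.sign a := by
  have := sign_sub_of_abs_lt (a := a) (b := -b) (by rwa [abs_neg])
  rw [← this]
  congr 1
  ring

/-- `sign (q X - p) = sign q * sign X` for integers `q ≠ 0`, `p` and `|X| > |p|`. -/
lemma sign_lin (p q : ℤ) (hq : q ≠ 0) (X : ℝ) (hX : |(p : ℝ)| < |X|) :
    SignType.sign ((q : ℝ) * X - (p : ℝ)) = SignType.sign q * SignType.sign X := by
  have h1 : (1 : ℝ) ≤ |(q : ℝ)| := by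
    have : (1 : ℤ) ≤ |q| := Int.one_le_abs hq
    exact_mod_cast this
  have h2 : |(p : ℝ)| < |(q : ℝ) * X| := by
    rw [abs_mul]
    nlinarith [abs_nonneg X]
  rw [sign_sub_of_abs_lt h2, sign_mul, sign_intCast_real]

lemma sign_int_eq_or {t : ℤ} (ht : t ≠ 0) : SignType.sign t = 1 ∨ SignType.sign t = -1 := by
  rcases lt_or_gt_of_ne ht with h | h
  · right; exact sign_neg h
  · left; exact sign_pos h

lemma sign_real_eq_or {t : ℝ} (ht : t ≠ 0) : SignType.sign t = 1 ∨ SignType.sign t = -1 := by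
  rcases lt_or_gt_of_ne ht with h | h
  · right; exact sign_neg h
  · left; exact sign_pos h

/-! ### 3. the side function far away from the two cusps -/

/-- the indicator of "lower entry zero" (the cusp of `u` is `∞`). -/
def chi (u : Fin 2 → ℤ) : ℤ := if u 1 = 0 then 1 else 0

/-- the constant part of the limit. -/
noncomputable def cst (u u' : Fin 2 → ℤ) : ℤ :=
  if u 1 ≠ 0 ∧ u' 1 ≠ 0 then
    -(((SignType.sign (det2 u u') : SignType) : ℤ) * ((SignType.sign (u 1 * u' 1) : SignType) : ℤ))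
  else 0

lemma Qf_eq_prod (u u' : Fin 2 → ℤ) (z : ℍ) :
    Qf u u' (z : ℂ) = -(((u 1 : ℝ) * z.re - (u 0 : ℝ)) * ((u' 1 : ℝ) * z.re - (u' 0 : ℝ))
      + (u 1 : ℝ) * (u' 1 : ℝ) * z.im ^ 2) := by
  rw [Qf_eq, Complex.normSq_apply, UpperHalfPlane.coe_re, UpperHalfPlane.coe_im]
  ring

/-- **the side function outside the strip containing both cusps.** -/
lemma F_far (u u' : Fin 2 → ℤ) (hu : u ≠ 0) (hu' : u' ≠ 0) (z : ℍ)
    (hz : |(u 0 : ℝ)| + |(u' 0 : ℝ)| < |z.re|) :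
    F u u' z = (chi u - chi u') * ((SignType.sign z.re : SignType) : ℤ) + cst u u' := by
  have hz1 : |(u 0 : ℝ)| < |z.re| := by linarith [abs_nonneg (u' 0 : ℝ)]
  have hz2 : |(u' 0 : ℝ)| < |z.re| := by linarith [abs_nonneg (u 0 : ℝ)]
  have hX : z.re ≠ 0 := by
    intro h
    rw [h, abs_zero] at hz1
    exact absurd hz1 (not_lt.mpr (abs_nonneg _))
  have hQ := Qf_eq_prod u u' z
  by_cases hq : u 1 = 0
  · have hp : u 0 ≠ 0 := by
      intro hp
      apply hu
      funext i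
      fin_cases i <;> simp [hp, hq]
    by_cases hs : u' 1 = 0
    · -- both cusps at infinity
      have : det2 u u' = 0 := by simp [det2, hq, hs]
      rw [F_eq_zero_of_det2 this]
      simp [chi, cst, hq, hs]
    · -- `u` at infinity
      have hdet : det2 u u' = u 0 * u' 1 := by simp [det2, hq]
      have hQ' : Qf u u' (z : ℂ) = (u 0 : ℝ) * ((u' 1 : ℝ) * z.re - (u' 0 : ℝ)) := by
        rw [hQ, hq]; push_cast; ring
      have hsl := sign_lin (u' 0) (u' 1) hs z.re hz2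
      simp only [F, hdet, hQ', sign_mul, hsl, sign_intCast_real, chi, cst, hq, hs, if_true,
        if_false, ne_eq, not_true_eq_false, false_and]
      rcases sign_int_eq_or hp with h1 | h1 <;> rcases sign_int_eq_or hs with h2 | h2 <;>
        rw [h1, h2] <;> simp
  · by_cases hs : u' 1 = 0
    · -- `u'` at infinity
      have hr : u' 0 ≠ 0 := by
        intro hr
        apply hu'
        funext i
        fin_cases i <;> simp [hr, hs]
      have hdet : det2 u u' = -(u 1 * u' 0) := by simp [det2, hs]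
      have hQ' : Qf u u' (z : ℂ) = (u' 0 : ℝ) * ((u 1 : ℝ) * z.re - (u 0 : ℝ)) := by
        rw [hQ, hs]; push_cast; ring
      have hsl := sign_lin (u 0) (u 1) hq z.re hz1
      simp only [F, hdet, hQ', sign_mul, hsl, sign_intCast_real, chi, cst, hq, hs, if_true,
        if_false, ne_eq, not_true_eq_false, and_false, Left.sign_neg]
      rcases sign_int_eq_or hq with h1 | h1 <;> rcases sign_int_eq_or hr with h2 | h2 <;>
        rw [h1, h2] <;> simp
    · -- both cusps finite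
      have hsl1 := sign_lin (u 0) (u 1) hq z.re hz1
      have hsl2 := sign_lin (u' 0) (u' 1) hs z.re hz2
      set A : ℝ := ((u 1 : ℝ) * z.re - (u 0 : ℝ)) * ((u' 1 : ℝ) * z.re - (u' 0 : ℝ)) with hA
      set B : ℝ := (u 1 : ℝ) * (u' 1 : ℝ) * z.im ^ 2 with hB
      have hy : 0 < z.im ^ 2 := by have := z.im_pos; positivity
      have hqs : u 1 * u' 1 ≠ 0 := mul_ne_zero hq hs
      have hsA : SignType.sign A = SignType.sign (u 1 * u' 1) := by
        rw [hA, sign_mul, hsl1, hsl2, sign_mul]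
        rcases sign_real_eq_or hX with h | h <;> rw [h] <;>
          rcases sign_int_eq_or hq with h1 | h1 <;> rcases sign_int_eq_or hs with h2 | h2 <;>
          rw [h1, h2] <;> decide
      have hsAB : SignType.sign (A + B) = SignType.sign (u 1 * u' 1) := by
        rcases lt_or_gt_of_ne hqs with h | h
        · have hA0 : A < 0 := by
            rw [← sign_eq_neg_one_iff, hsA]; exact sign_neg h
          have hB0 : B < 0 := by
            have : ((u 1 : ℝ) * (u' 1 : ℝ)) < 0 := by exact_mod_cast h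
            rw [hB]; nlinarith
          rw [sign_neg h, sign_neg (by linarith)]
        · have hA0 : 0 < A := by
            rw [← sign_eq_one_iff, hsA]; exact sign_pos h
          have hB0 : 0 < B := by
            have : 0 < ((u 1 : ℝ) * (u' 1 : ℝ)) := by exact_mod_cast h
            rw [hB]; positivity
          rw [sign_pos h, sign_pos (by linarith)]
      have hQs : SignType.sign (Qf u u' (z : ℂ)) = -SignType.sign (u 1 * u' 1) := by
        rw [hQ, Left.sign_neg, hsAB]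
      simp only [F, hQs, chi, cst, hq, hs, if_false, ne_eq, not_false_eq_true, and_self, if_true]
      push_cast
      ring

lemma sign_eq_st {k : ℤ} (hk : k ≠ 0) : ((SignType.sign k : SignType) : ℤ) = st k := by
  rcases lt_or_gt_of_ne hk with h | h
  · rw [sign_neg h, st, if_neg (by omega)]; rfl
  · rw [sign_pos h, st, if_pos (by omega)]; rfl

/-- **limits along a horocycle**: for `|k|` large the side function at `z₀ + k n` is
`(χ u - χ u') sign(n) st(k) + cst`. -/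
lemma F_horo (u u' : Fin 2 → ℤ) (hu : u ≠ 0) (hu' : u' ≠ 0) (z₀ : ℍ) (n : ℤ) (hn : n ≠ 0) :
    ∃ K : ℤ, ∀ k : ℤ, K ≤ |k| → ∀ zk : ℍ, (zk : ℂ) = (z₀ : ℂ) + ((k * n : ℤ) : ℂ) →
      F u u' zk = (chi u - chi u') * ((SignType.sign n : SignType) : ℤ) * st k + cst u u' := by
  refine ⟨⌈|z₀.re|⌉ + |u 0| + |u' 0| + 1, ?_⟩
  intro k hk zk hzk
  have hre : zk.re = z₀.re + ((k * n : ℤ) : ℝ) := by
    have := congrArg Complex.re hzk
    simpa using this
  have hK : |z₀.re| + |(u 0 : ℝ)| + |(u' 0 : ℝ)| + 1 ≤ ((|k| : ℤ) : ℝ) := by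
    have h1 : ((⌈|z₀.re|⌉ + |u 0| + |u' 0| + 1 : ℤ) : ℝ) ≤ ((|k| : ℤ) : ℝ) := by exact_mod_cast hk
    have h2 : |z₀.re| ≤ (⌈|z₀.re|⌉ : ℝ) := Int.le_ceil _
    push_cast at h1 ⊢
    linarith
  have hkn : ((|k| : ℤ) : ℝ) ≤ |((k * n : ℤ) : ℝ)| := by
    have : |k| ≤ |k * n| := by
      rw [abs_mul]
      have := Int.one_le_abs hn
      nlinarith [abs_nonneg k]
    have h3 : ((|k| : ℤ) : ℝ) ≤ ((|k * n| : ℤ) : ℝ) := by exact_mod_cast this
    simpa using h3
  have hk0 : k ≠ 0 := by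
    rintro rfl
    simp only [abs_zero, Int.cast_zero] at hK
    linarith [abs_nonneg z₀.re, abs_nonneg (u 0 : ℝ), abs_nonneg (u' 0 : ℝ)]
  have hlt : |z₀.re| < |((k * n : ℤ) : ℝ)| := by
    linarith [abs_nonneg (u 0 : ℝ), abs_nonneg (u' 0 : ℝ)]
  have hfar : |(u 0 : ℝ)| + |(u' 0 : ℝ)| < |zk.re| := by
    rw [hre]
    have h4 : |((k * n : ℤ) : ℝ)| - |z₀.re| ≤ |z₀.re + ((k * n : ℤ) : ℝ)| := by
      have := abs_sub_abs_le_abs_sub ((k * n : ℤ) : ℝ) (-z₀.re)
      rw [abs_neg] at this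
      calc |((k * n : ℤ) : ℝ)| - |z₀.re| ≤ |((k * n : ℤ) : ℝ) - -z₀.re| := this
        _ = |z₀.re + ((k * n : ℤ) : ℝ)| := by congr 1; ring
    linarith
  have hsign : SignType.sign zk.re = SignType.sign k * SignType.sign n := by
    rw [hre, sign_add_of_abs_lt hlt, sign_intCast_real, sign_mul]
  rw [F_far u u' hu hu' zk hfar, hsign, SignType.coe_mul, sign_eq_st hk0]
  ring

/-! ### 4. translations and upper triangular matrices -/

/-- a group element acting on `ℍ` as `z ↦ z + n`: its powers act as `z ↦ z + k n`. -/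
lemma coe_zpow_smul {G : Type*} [Group G] [MulAction G ℍ] (g : G) (n : ℤ)
    (hg : ∀ z : ℍ, g • z = (n : ℝ) +ᵥ z) (k : ℤ) (z : ℍ) :
    ((g ^ k • z : ℍ) : ℂ) = (z : ℂ) + ((k * n : ℤ) : ℂ) := by
  have hinv : ∀ z : ℍ, g⁻¹ • z = (-(n : ℝ)) +ᵥ z := by
    intro z
    have : g • ((-(n : ℝ)) +ᵥ z) = z := by
      rw [hg, vadd_vadd]
      simp
    conv_lhs => rw [← this]
    rw [inv_smul_smul]
  induction k using Int.induction_on generalizing z with
  | zero => simp
  | succ i ih =>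
    rw [_root_.zpow_add_one, mul_smul, ih, hg, coe_vadd]
    push_cast
    ring
  | pred i ih =>
    rw [_root_.zpow_sub_one, mul_smul, ih, hinv, coe_vadd]
    push_cast
    ring

/-- the upper triangular matrices. -/
def Borel : Subgroup SL(2,ℤ) where
  carrier := {g | g 1 0 = 0}
  one_mem' := by simp
  mul_mem' := by
    intro a b ha hb
    simp only [Set.mem_ofPred_eq] at ha hb ⊢
    rw [Matrix.SpecialLinearGroup.coe_mul, Matrix.mul_apply, Fin.sum_univ_two, ha, hb]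
    ring
  inv_mem' := by
    intro a ha
    simp only [Set.mem_ofPred_eq] at ha ⊢
    rw [Matrix.SpecialLinearGroup.coe_inv, Matrix.adjugate_fin_two]
    simp [ha]

lemma mem_Borel {g : SL(2,ℤ)} : g ∈ Borel ↔ g 1 0 = 0 := Iff.rfl

lemma chi_smul_of_mem_Borel {g : SL(2,ℤ)} (hg : g ∈ Borel) (u : Fin 2 → ℤ) :
    chi (g • u) = chi u := by
  have h10 : g 1 0 = 0 := hg
  have hdet := det_eq_one' g
  rw [h10, mul_zero, sub_zero] at hdet
  have h11 : g 1 1 ≠ 0 := by
    intro h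
    rw [h, mul_zero] at hdet
    exact zero_ne_one hdet
  simp only [chi, smul_vec_one, h10, zero_mul, zero_add, mul_eq_zero, h11, false_or]

/-! ### 5. the coset decomposition along `⟨π⟩` -/

section Main

variable (Γ : Subgroup SL(2,ℤ)) (π : Γ)

/-- the indicator function of "`ε⁻¹ • v` has its cusp at `∞`" on `Γ`. -/
def Aof (v : Fin 2 → ℤ) (ε : Γ) : ℤ := chi ((ε : SL(2,ℤ))⁻¹ • v)

lemma Aof_mul_of_mem (hB : (π : SL(2,ℤ)) ∈ Borel) (v : Fin 2 → ℤ) (ε η : Γ)
    (hη : η ∈ Subgroup.zpowers π) : Aof Γ v (ε * η) = Aof Γ v ε := by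
  have hη' : (η : SL(2,ℤ)) ∈ Borel := by
    have : Subgroup.zpowers π ≤ Borel.comap Γ.subtype := by
      rw [Subgroup.zpowers_le]
      exact hB
    exact this hη
  unfold Aof
  rw [Subgroup.coe_mul, _root_.mul_inv_rev, mul_smul]
  exact chi_smul_of_mem_Borel (Borel.inv_mem hη') _

/-- the same function on `Γ ⧸ ⟨π⟩` (via `Quotient.out`). -/
noncomputable def Abar (v : Fin 2 → ℤ) (q : Γ ⧸ Subgroup.zpowers π) : ℤ := Aof Γ v (Quotient.out q)

lemma Abar_mk (hB : (π : SL(2,ℤ)) ∈ Borel) (v : Fin 2 → ℤ) (ε : Γ) :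
    Abar Γ π v (ε : Γ ⧸ Subgroup.zpowers π) = Aof Γ v ε := by
  obtain ⟨h, hh⟩ := QuotientGroup.mk_out_eq_mul (Subgroup.zpowers π) ε
  unfold Abar
  rw [hh]
  exact Aof_mul_of_mem Γ π hB v ε h h.2

lemma Abar_smul (hB : (π : SL(2,ℤ)) ∈ Borel) (v : Fin 2 → ℤ) (δ : Γ)
    (q : Γ ⧸ Subgroup.zpowers π) :
    Abar Γ π ((δ : SL(2,ℤ)) • v) q = Abar Γ π v (δ⁻¹ • q) := by
  induction q using QuotientGroup.induction_on with
  | H ε =>
    rw [MulAction.Quotient.smul_mk, Abar_mk Γ π hB, Abar_mk Γ π hB]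
    unfold Aof
    rw [smul_eq_mul, Subgroup.coe_mul, _root_.mul_inv_rev, Subgroup.coe_inv, inv_inv, mul_smul]

lemma bijective_out_mul_zpow (hinj : Injective (fun k : ℤ => π ^ k)) :
    Bijective (fun x : (Γ ⧸ Subgroup.zpowers π) × ℤ => Quotient.out x.1 * π ^ x.2) := by
  constructor
  · rintro ⟨q, k⟩ ⟨q', k'⟩ hx
    simp only at hx
    have h1 : ((Quotient.out q * π ^ k : Γ) : Γ ⧸ Subgroup.zpowers π) = q := by
      rw [QuotientGroup.mk_mul_of_mem _ (Subgroup.zpow_mem_zpowers π k)]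
      exact Quotient.out_eq' q
    have h2 : ((Quotient.out q' * π ^ k' : Γ) : Γ ⧸ Subgroup.zpowers π) = q' := by
      rw [QuotientGroup.mk_mul_of_mem _ (Subgroup.zpow_mem_zpowers π k')]
      exact Quotient.out_eq' q'
    have hq : q = q' := by rw [← h1, ← h2, hx]
    subst hq
    have := mul_left_cancel hx
    rw [Prod.mk.injEq]
    exact ⟨rfl, hinj this⟩
  · intro ε
    obtain ⟨h, hh⟩ := QuotientGroup.mk_out_eq_mul (Subgroup.zpowers π) ε
    obtain ⟨k, hk⟩ := Subgroup.mem_zpowers_iff.mp h.2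
    refine ⟨((ε : Γ ⧸ Subgroup.zpowers π), -k), ?_⟩
    simp only
    rw [hh, _root_.zpow_neg, hk]
    group

lemma zpow_injective_of_act (n : ℤ) (hn : n ≠ 0) (hact : ∀ z : ℍ, π • z = (n : ℝ) +ᵥ z) :
    Injective (fun k : ℤ => π ^ k) := by
  intro k l hkl
  simp only at hkl
  have h1 := coe_zpow_smul π n hact k UpperHalfPlane.I
  have h2 := coe_zpow_smul π n hact l UpperHalfPlane.I
  rw [hkl, h2] at h1
  have h3 : ((l * n : ℤ) : ℂ) = ((k * n : ℤ) : ℂ) := add_left_cancel h1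
  have h4 : l * n = k * n := by exact_mod_cast h3
  exact (mul_right_cancel₀ hn h4).symm

/-- the value of the side function on the coset `q` at the `k`-th translate. -/
noncomputable def phi (v v' : Fin 2 → ℤ) (z₀ : ℍ) (q : Γ ⧸ Subgroup.zpowers π) (k : ℤ) : ℤ :=
  F v v' ((Quotient.out q * π ^ k) • z₀)

lemma phi_eq (v v' : Fin 2 → ℤ) (z₀ : ℍ) (q : Γ ⧸ Subgroup.zpowers π) (k : ℤ) :
    phi Γ π v v' z₀ q k
      = F (((Quotient.out q : Γ) : SL(2,ℤ))⁻¹ • v) (((Quotient.out q : Γ) : SL(2,ℤ))⁻¹ • v')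
          (π ^ k • z₀) := by
  unfold phi
  rw [mul_smul, Subgroup.smul_def (Quotient.out q), F_smul_point]

lemma smul_ne_zero_of_ne_zero (g : SL(2,ℤ)) {v : Fin 2 → ℤ} (hv : v ≠ 0) : g • v ≠ 0 := by
  intro h
  apply hv
  have := congrArg (fun x => g⁻¹ • x) h
  simpa using this

/-- **the contribution of one coset.** -/
lemma sum_phi (n : ℤ) (hn : n ≠ 0) (hact : ∀ z : ℍ, π • z = (n : ℝ) +ᵥ z) (v v' : Fin 2 → ℤ)
    (hv : v ≠ 0) (hv' : v' ≠ 0) (z₀ : ℍ) (q : Γ ⧸ Subgroup.zpowers π) :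
    ∑ᶠ k : ℤ, (phi Γ π v v' z₀ q (k + 1) - phi Γ π v v' z₀ q k)
      = 2 * ((Abar Γ π v q - Abar Γ π v' q) * ((SignType.sign n : SignType) : ℤ)) := by
  set u := ((Quotient.out q : Γ) : SL(2,ℤ))⁻¹ • v with hu
  set u' := ((Quotient.out q : Γ) : SL(2,ℤ))⁻¹ • v' with hu'
  obtain ⟨K, hK⟩ := F_horo u u' (smul_ne_zero_of_ne_zero _ hv) (smul_ne_zero_of_ne_zero _ hv') z₀ n hn
  refine telescope (phi Γ π v v' z₀ q) K _ (cst u u') ?_
  intro k hk
  rw [phi_eq, hK k hk (π ^ k • z₀) (coe_zpow_smul π n hact k z₀)]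
  rfl

/-- **the coset decomposition** of `D Γ (F v v') z₀ (π • z₀)`. -/
lemma D_eq_finsum (hinj : Injective (fun k : ℤ => π ^ k)) (v v' : Fin 2 → ℤ) (z₀ : ℍ) :
    HasFiniteSupport (fun x : (Γ ⧸ Subgroup.zpowers π) × ℤ =>
        phi Γ π v v' z₀ x.1 (x.2 + 1) - phi Γ π v v' z₀ x.1 x.2) ∧
      D Γ (F v v') z₀ (π • z₀)
        = ∑ᶠ q : Γ ⧸ Subgroup.zpowers π, ∑ᶠ k : ℤ,
            (phi Γ π v v' z₀ q (k + 1) - phi Γ π v v' z₀ q k) := by
  let e : (Γ ⧸ Subgroup.zpowers π) × ℤ ≃ Γ := Equiv.ofBijective _ (bijective_out_mul_zpow Γ π hinj)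
  have he : ∀ x, e x = Quotient.out x.1 * π ^ x.2 := fun x => rfl
  have key : ∀ x : (Γ ⧸ Subgroup.zpowers π) × ℤ,
      F v v' (e x • π • z₀) - F v v' (e x • z₀)
        = phi Γ π v v' z₀ x.1 (x.2 + 1) - phi Γ π v v' z₀ x.1 x.2 := by
    intro x
    unfold phi
    rw [he, ← mul_smul, mul_assoc, ← _root_.zpow_add_one]
  have hfin : HasFiniteSupport (fun x : (Γ ⧸ Subgroup.zpowers π) × ℤ =>
      phi Γ π v v' z₀ x.1 (x.2 + 1) - phi Γ π v v' z₀ x.1 x.2) := by
    have := ((tame_F_subgroup Γ v v').hasFiniteSupport z₀ (π • z₀)).preimage e.injective.injOn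
    refine this.subset ?_
    intro x hx
    rw [Function.mem_support, ← key x] at hx
    simpa using hx
  refine ⟨hfin, ?_⟩
  unfold D
  rw [← finsum_comp_equiv e (f := fun ε : Γ => F v v' (ε • π • z₀) - F v v' (ε • z₀))]
  simp_rw [key]
  exact finsum_curry _ hfin

/-- **finiteness**: only finitely many cosets `q` move the cusp of `v` to `∞` (deduced from the
tameness of the side function). -/
lemma finite_support_Abar (n : ℤ) (hn : n ≠ 0) (hact : ∀ z : ℍ, π • z = (n : ℝ) +ᵥ z)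
    (v : Fin 2 → ℤ) (hv : v ≠ 0) : (support (Abar Γ π v)).Finite := by
  set v' : Fin 2 → ℤ := ![-(v 1), v 0] with hv'def
  have hdet : det2 v v' ≠ 0 := by
    have h1 : det2 v v' = v 0 ^ 2 + v 1 ^ 2 := by
      simp only [det2, hv'def, Matrix.cons_val_zero, Matrix.cons_val_one]
      ring
    rw [h1]
    intro h0
    apply hv
    have h00 : v 0 = 0 := by nlinarith [sq_nonneg (v 0), sq_nonneg (v 1)]
    have h01 : v 1 = 0 := by nlinarith [sq_nonneg (v 0), sq_nonneg (v 1)]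
    funext i
    fin_cases i <;> simp [h00, h01]
  have hv' : v' ≠ 0 := ne_zero_of_det2_right hdet
  have hinj := zpow_injective_of_act Γ π n hn hact
  obtain ⟨hfin, -⟩ := D_eq_finsum Γ π hinj v v' UpperHalfPlane.I
  refine (hfin.image Prod.fst).subset ?_
  intro q hq
  rw [Function.mem_support] at hq
  -- `Abar v q = 1` and `Abar v' q = 0`
  set g : SL(2,ℤ) := ((Quotient.out q : Γ) : SL(2,ℤ))⁻¹ with hg
  have h1 : (g • v) 1 = 0 := by
    by_contra hcon
    apply hq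
    simp [Abar, Aof, chi, ← hg, hcon]
  have h2 : (g • v') 1 ≠ 0 := by
    intro hcon
    apply hdet
    rw [← det2_smul g v v']
    simp [det2, h1, hcon]
  have hA : Abar Γ π v q - Abar Γ π v' q = 1 := by
    simp [Abar, Aof, chi, ← hg, h1, h2]
  have hsum := sum_phi Γ π n hn hact v v' hv hv' UpperHalfPlane.I q
  rw [hA, one_mul] at hsum
  have hne : ∑ᶠ k : ℤ, (phi Γ π v v' UpperHalfPlane.I q (k + 1) - phi Γ π v v' UpperHalfPlane.I q k)
      ≠ 0 := by
    rw [hsum]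
    rcases sign_int_eq_or hn with h | h <;> rw [h] <;> simp
  obtain ⟨k, hk⟩ : ∃ k : ℤ,
      phi Γ π v v' UpperHalfPlane.I q (k + 1) - phi Γ π v v' UpperHalfPlane.I q k ≠ 0 := by
    by_contra hcon
    push Not at hcon
    apply hne
    rw [finsum_congr hcon, finsum_zero]
  exact ⟨(q, k), by simpa using hk, rfl⟩

/-- **the upper triangular case.** -/
theorem D_upper (δ : Γ) (hB : (π : SL(2,ℤ)) 1 0 = 0) (w : Fin 2 → ℤ) (hw : w ≠ 0) (z₀ : ℍ) :
    D Γ (F w ((δ : SL(2,ℤ)) • w)) z₀ (π • z₀) = 0 := by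
  obtain ⟨n, hnT⟩ := ModularGroup.exists_eq_T_zpow_of_c_eq_zero hB
  have hact : ∀ z : ℍ, π • z = (n : ℝ) +ᵥ z := by
    intro z
    rw [Subgroup.smul_def, hnT, modular_T_zpow_smul]
  by_cases hn : n = 0
  · have : π • z₀ = z₀ := by
      rw [hact, hn]
      simp
    rw [this, D_self]
  have hinj := zpow_injective_of_act Γ π n hn hact
  have hw' : (δ : SL(2,ℤ)) • w ≠ 0 := smul_ne_zero_of_ne_zero _ hw
  obtain ⟨-, hD⟩ := D_eq_finsum Γ π hinj w ((δ : SL(2,ℤ)) • w) z₀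
  rw [hD]
  simp_rw [sum_phi Γ π n hn hact w _ hw hw' z₀, Abar_smul Γ π hB w δ]
  have h1 := finite_support_Abar Γ π n hn hact w hw
  have h2 : (support fun q : Γ ⧸ Subgroup.zpowers π => Abar Γ π w (δ⁻¹ • q)).Finite := by
    have := h1.preimage (MulAction.toPerm (δ⁻¹ : Γ)).injective.injOn
    refine this.subset ?_
    intro q hq
    simpa using hq
  rw [← mul_finsum, ← finsum_mul, finsum_sub_distrib h1 h2]
  have : ∑ᶠ q : Γ ⧸ Subgroup.zpowers π, Abar Γ π w (δ⁻¹ • q)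
      = ∑ᶠ q : Γ ⧸ Subgroup.zpowers π, Abar Γ π w q :=
    finsum_comp_equiv (MulAction.toPerm (δ⁻¹ : Γ)) (f := Abar Γ π w)
  rw [this]
  ring

end Main

/-! ### 6. conjugation inside `SL(2,ℤ)` -/

/-- the conjugate subgroup `g⁻¹ Γ g`. -/
def conjSub (Γ : Subgroup SL(2,ℤ)) (g : SL(2,ℤ)) : Subgroup SL(2,ℤ) :=
  Γ.map ((MulAut.conj g⁻¹ : SL(2,ℤ) ≃* SL(2,ℤ)) : SL(2,ℤ) →* SL(2,ℤ))

/-- `Γ ≃ g⁻¹ Γ g`. -/
def conjEquiv (Γ : Subgroup SL(2,ℤ)) (g : SL(2,ℤ)) : Γ ≃* conjSub Γ g :=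
  (MulAut.conj g⁻¹ : SL(2,ℤ) ≃* SL(2,ℤ)).subgroupMap Γ

lemma coe_conjEquiv (Γ : Subgroup SL(2,ℤ)) (g : SL(2,ℤ)) (ε : Γ) :
    ((conjEquiv Γ g ε : conjSub Γ g) : SL(2,ℤ)) = g⁻¹ * ε * g := by
  show (MulAut.conj g⁻¹ : SL(2,ℤ) ≃* SL(2,ℤ)) (ε : SL(2,ℤ)) = _
  rw [MulAut.conj_apply, inv_inv]

/-- transport of a tame orbit sum to the conjugate subgroup. -/
lemma D_conj (Γ : Subgroup SL(2,ℤ)) (g : SL(2,ℤ)) (f : ℍ → ℤ) (z z' : ℍ) :
    D Γ f z z' = D (conjSub Γ g) (fun x => f (g • x)) (g⁻¹ • z) (g⁻¹ • z') := by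
  unfold D
  rw [← finsum_comp_equiv (conjEquiv Γ g).toEquiv
    (f := fun ε : conjSub Γ g => f (g • ε • g⁻¹ • z') - f (g • ε • g⁻¹ • z))]
  congr 1
  funext ε
  simp only [MulEquiv.toEquiv_eq_coe, EquivLike.coe_coe]
  have key : ∀ x : ℍ, g • (conjEquiv Γ g ε) • g⁻¹ • x = ε • x := by
    intro x
    rw [Subgroup.smul_def (conjEquiv Γ g ε), coe_conjEquiv, Subgroup.smul_def ε]
    simp only [mul_smul, smul_inv_smul]
  rw [key, key]

/-- a parabolic (or `± 1`) element of `SL(2,ℤ)` is conjugate in `SL(2,ℤ)` to an upper triangular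
matrix. -/
lemma exists_conj_upper (P : SL(2,ℤ))
    (hP : ((P : SL(2,ℤ)) : Matrix (Fin 2) (Fin 2) ℤ).trace ^ 2 = 4) :
    ∃ g : SL(2,ℤ), (g⁻¹ * P * g : SL(2,ℤ)) 1 0 = 0 := by
  by_cases hc : P 1 0 = 0
  · exact ⟨1, by simpa using hc⟩
  have hdet := det_eq_one' P
  rw [Matrix.trace_fin_two] at hP
  obtain ⟨s, hs, hs2⟩ : ∃ s : ℤ, P 0 0 + P 1 1 = 2 * s ∧ s ^ 2 = 1 := by
    have h : (P 0 0 + P 1 1 - 2) * (P 0 0 + P 1 1 + 2) = 0 := by linear_combination hP
    rcases mul_eq_zero.mp h with h | h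
    · exact ⟨1, by linarith, by norm_num⟩
    · exact ⟨-1, by linarith, by norm_num⟩
  have hGpos : 0 < Int.gcd (P 0 0 - s) (P 1 0) := Int.gcd_pos_of_ne_zero_right _ hc
  obtain ⟨p, r, hpr, hp, hr⟩ := Int.exists_gcd_one hGpos
  set G : ℤ := (Int.gcd (P 0 0 - s) (P 1 0) : ℤ) with hG
  have hG0 : G ≠ 0 := by
    have : (0 : ℤ) < G := Int.natCast_pos.mpr hGpos
    exact this.ne'
  obtain ⟨g, hg0, hg1⟩ := (Int.isCoprime_iff_gcd_eq_one.mpr hpr).exists_SL2_col 0
  refine ⟨g, ?_⟩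
  have hX : (g⁻¹ * P * g : SL(2,ℤ)) 1 0
      = -(g 1 0) * (P 0 0 * g 0 0 + P 0 1 * g 1 0) + g 0 0 * (P 1 0 * g 0 0 + P 1 1 * g 1 0) := by
    simp only [Matrix.SpecialLinearGroup.coe_mul, Matrix.SpecialLinearGroup.coe_inv,
      Matrix.adjugate_fin_two, Matrix.mul_apply, Fin.sum_univ_two, Matrix.of_apply,
      Matrix.cons_val_zero, Matrix.cons_val_one]
    ring
  rw [hX, hg0, hg1]
  have ha : P 0 0 = p * G + s := by linarith
  have hd : P 1 1 = s - p * G := by linarith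
  have h1 : G * (p ^ 2 * G + P 0 1 * r) = 0 := by
    have := hdet
    rw [ha, hd, hr] at this
    linear_combination (-1) * this + hs2
  have h2 : p ^ 2 * G + P 0 1 * r = 0 := (mul_eq_zero.mp h1).resolve_left hG0
  rw [ha, hd, hr]
  linear_combination (-r) * h2

/-! ### 7. the theorem -/

/-- parabolic elements have vanishing tame orbit sum against the side function of two
`Γ`-equivalent cusps `w`, `δ • w` (any nonzero integer vector `w`). -/
theorem D_parabolic_vec (Γ : Subgroup SL(2,ℤ)) (π δ : Γ)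
    (hπ : ((π : SL(2,ℤ)) : Matrix (Fin 2) (Fin 2) ℤ).trace ^ 2 = 4) (w : Fin 2 → ℤ) (hw : w ≠ 0)
    (z₀ : ℍ) :
    D Γ (F w ((δ : SL(2,ℤ)) • w)) z₀ (π • z₀) = 0 := by
  obtain ⟨g, hg⟩ := exists_conj_upper (π : SL(2,ℤ)) hπ
  rw [D_conj Γ g]
  have hz : g⁻¹ • (π • z₀) = (conjEquiv Γ g π) • (g⁻¹ • z₀) := by
    rw [Subgroup.smul_def, Subgroup.smul_def, coe_conjEquiv]
    simp only [mul_smul, smul_inv_smul]
  have hf : (fun x => F w ((δ : SL(2,ℤ)) • w) (g • x))
      = F (g⁻¹ • w) (((conjEquiv Γ g δ : conjSub Γ g) : SL(2,ℤ)) • (g⁻¹ • w)) := by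
    funext x
    rw [F_smul_point, coe_conjEquiv]
    simp only [mul_smul, smul_inv_smul]
  rw [hz, hf]
  refine D_upper (conjSub Γ g) (conjEquiv Γ g π) (conjEquiv Γ g δ) ?_ _
    (smul_ne_zero_of_ne_zero _ hw) _
  rw [coe_conjEquiv]
  exact hg

/-- **(PD-F)**: parabolic elements have vanishing tame orbit sum against the side function of two
`Γ`-equivalent cusps. -/
theorem D_parabolic (Γ : Subgroup SL(2,ℤ)) (π δ : Γ)
    (hπ : ((π : SL(2,ℤ)) : Matrix (Fin 2) (Fin 2) ℤ).trace ^ 2 = 4) (z₀ : ℍ) :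
    D Γ (F ![1, 0] ((δ : SL(2,ℤ)) • ![1, 0])) z₀ (π • z₀) = 0 := by
  refine D_parabolic_vec Γ π δ hπ ![1, 0] ?_ z₀
  intro h
  have := congrFun h 0
  simp at this

end Fermat.Agent.ES.PD.ParabolicZero23
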