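/-
Program L, chapter (I2), plan C (helper18), part of brick PD-I (helper23): tame orbit sums and the
transfer.

For a finite-index subgroup `H ≤ Γ` and a `Γ`-tame function `f`, the homomorphism
`γ ↦ D Γ f z₀ (γ • z₀)` of `Γ` is the transfer (Verlagerung) of the homomorphism
`h ↦ D H f z₀ (h • z₀)` of `H` (`D_eq_transfer`; this is (PF2) for every tame `f`).  Also: left
reindexing invariance (= (J1)), and the decomposition of `D Γ f` along explicit right- or
left-coset representatives.
(Mathlib + TameSum18 + TransferReps27 [generic transfer on representatives].)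
-/
import Mathlib
import Fermat.Agent.ES.PD.TameSum18
import Fermat.Agent.ES.LR.TransferReps27

set_option autoImplicit false

open Function

namespace Fermat.Agent.ES.PD.TameTransfer23

open Fermat.Agent.ES.PD.TameSum18

variable {Γ : Type*} [Group Γ] {Z : Type*} [MulAction Γ Z]

/-! ### left reindexing -/

/-- **(J1)**: precomposing `f` with the action of an element of `Γ` does not change `D Γ f`. -/
lemma D_comp_smul (f : Z → ℤ) (ε : Γ) (z z' : Z) :
    D Γ (fun x => f (ε • x)) z z' = D Γ f z z' := by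
  unfold D
  rw [← finsum_comp_equiv (Equiv.mulLeft ε) (f := fun η : Γ => f (η • z') - f (η • z))]
  congr 1
  funext η
  simp [mul_smul]

lemma Tame.comp_smul {f : Z → ℤ} (hf : Tame Γ f) (ε : Γ) : Tame Γ (fun x => f (ε • x)) := by
  intro z z'
  have := (hf z z').preimage (Equiv.mulLeft ε).injective.injOn
  refine this.subset ?_
  intro η hη
  simpa [mul_smul] using hη

/-! ### representatives -/

section Reps

variable (H : Subgroup Γ) {I : Type*} (r : I → Γ)

/-- `(h, i) ↦ h * r i` is a bijection `H × I → Γ` when `i ↦ (r i)⁻¹ H` is a bijection onto `Γ ⧸ H`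
(i.e. the `r i` represent the right cosets `H r`). -/
lemma bijective_mul_reps (hr : Bijective (fun i : I => (((r i)⁻¹ : Γ) : Γ ⧸ H))) :
    Bijective (fun x : H × I => (x.1 : Γ) * r x.2) := by
  constructor
  · rintro ⟨h, i⟩ ⟨h', j⟩ hx
    simp only at hx
    have hij : i = j := by
      apply hr.1
      simp only
      rw [QuotientGroup.eq, inv_inv]
      have : r i * (r j)⁻¹ = (h : Γ)⁻¹ * h' := by
        have h1 : r i = (h : Γ)⁻¹ * ((h' : Γ) * r j) := by rw [← hx]; group
        rw [h1]; group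
      rw [this]
      exact H.mul_mem (H.inv_mem h.2) h'.2
    subst hij
    have : (h : Γ) = h' := mul_right_cancel hx
    rw [Prod.mk.injEq]
    exact ⟨Subtype.ext this, rfl⟩
  · intro ε
    obtain ⟨i, hi⟩ := hr.2 ((ε⁻¹ : Γ) : Γ ⧸ H)
    simp only at hi
    rw [QuotientGroup.eq, inv_inv] at hi
    refine ⟨(⟨ε * (r i)⁻¹, ?_⟩, i), ?_⟩
    · have := H.inv_mem hi
      simpa [mul_inv_rev] using this
    · simp

/-- `(i, h) ↦ r i * h` is a bijection `I × H → Γ` when `i ↦ (r i) H` is a bijection onto `Γ ⧸ H`. -/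
lemma bijective_reps_mul (hr : Bijective (fun i : I => ((r i : Γ) : Γ ⧸ H))) :
    Bijective (fun x : I × H => r x.1 * (x.2 : Γ)) := by
  constructor
  · rintro ⟨i, h⟩ ⟨j, h'⟩ hx
    simp only at hx
    have hij : i = j := by
      apply hr.1
      simp only
      rw [QuotientGroup.eq]
      have : (r i)⁻¹ * r j = (h : Γ) * (h' : Γ)⁻¹ := by
        have h1 : r j = (r i * (h : Γ)) * (h' : Γ)⁻¹ := by rw [hx]; group
        rw [h1]; group
      rw [this]
      exact H.mul_mem h.2 (H.inv_mem h'.2)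
    subst hij
    have : (h : Γ) = h' := mul_left_cancel hx
    rw [Prod.mk.injEq]
    exact ⟨rfl, Subtype.ext this⟩
  · intro ε
    obtain ⟨i, hi⟩ := hr.2 ((ε : Γ) : Γ ⧸ H)
    simp only at hi
    rw [QuotientGroup.eq] at hi
    exact ⟨(i, ⟨(r i)⁻¹ * ε, hi⟩), by simp⟩

variable [Fintype I]

/-- decomposition along right-coset representatives: `ε = h * r i`. -/
theorem D_eq_sum_reps (hr : Bijective (fun i : I => (((r i)⁻¹ : Γ) : Γ ⧸ H))) {f : Z → ℤ}
    (hf : Tame Γ f) (z z' : Z) :
    D Γ f z z' = ∑ i, D H f (r i • z) (r i • z') := by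
  unfold D
  let e : I × H ≃ Γ := (Equiv.prodComm _ _).trans (Equiv.ofBijective _ (bijective_mul_reps H r hr))
  have he : ∀ x : I × H, e x = (x.2 : Γ) * r x.1 := fun x => rfl
  rw [← finsum_comp_equiv e (f := fun ε : Γ => f (ε • z') - f (ε • z))]
  rw [finsum_curry]
  · rw [finsum_eq_sum_of_fintype]
    refine Finset.sum_congr rfl fun i _ => ?_
    congr 1
    funext h
    rw [he]
    simp only [mul_smul, Subgroup.smul_def]
  · have := (hf.hasFiniteSupport z z').preimage e.injective.injOn
    refine this.subset ?_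
    intro x hx
    simpa using hx

/-- decomposition along left-coset representatives: `ε = r i * h`. -/
theorem D_eq_sum_reps_left (hr : Bijective (fun i : I => ((r i : Γ) : Γ ⧸ H))) {f : Z → ℤ}
    (hf : Tame Γ f) (z z' : Z) :
    D Γ f z z' = ∑ i, D H (fun x => f (r i • x)) z z' := by
  unfold D
  let e : I × H ≃ Γ := Equiv.ofBijective _ (bijective_reps_mul H r hr)
  have he : ∀ x : I × H, e x = r x.1 * (x.2 : Γ) := fun x => rfl
  rw [← finsum_comp_equiv e (f := fun ε : Γ => f (ε • z') - f (ε • z))]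
  rw [finsum_curry]
  · rw [finsum_eq_sum_of_fintype]
    refine Finset.sum_congr rfl fun i _ => ?_
    congr 1
    funext h
    rw [he]
    simp only [mul_smul, Subgroup.smul_def]
  · have := (hf.hasFiniteSupport z z').preimage e.injective.injOn
    refine this.subset ?_
    intro x hx
    simpa using hx

end Reps

/-! ### the transfer -/

/-- the homomorphism `h ↦ D H f z₀ (h • z₀)` in multiplicative form. -/
noncomputable def homMul {H : Type*} [Group H] [MulAction H Z] {f : Z → ℤ} (hf : Tame H f)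
    (z₀ : Z) : H →* Multiplicative ℤ :=
  AddMonoidHom.toMultiplicativeRight (homOf hf z₀)

lemma homMul_apply {H : Type*} [Group H] [MulAction H Z] {f : Z → ℤ} (hf : Tame H f) (z₀ : Z)
    (h : H) : homMul hf z₀ h = Multiplicative.ofAdd (D H f z₀ (h • z₀)) := rfl

/-- **(PF2), generic form, on explicit representatives.** -/
theorem D_eq_transfer_of_reps (H : Subgroup Γ) [H.FiniteIndex] {I : Type*} [Fintype I]
    (r : I → Γ) (hr : Bijective (fun i : I => (((r i)⁻¹ : Γ) : Γ ⧸ H))) {f : Z → ℤ}
    (hf : Tame Γ f) (z₀ : Z) (γ : Γ) :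
    D Γ f z₀ (γ • z₀)
      = Multiplicative.toAdd (MonoidHom.transfer (homMul (hf.subgroup H) z₀) γ) := by
  classical
  have hH : Tame H f := hf.subgroup H
  have hbij := bijective_mul_reps H r hr
  -- `r i * γ = h i * r (σ i)`
  have hex : ∀ i, ∃ x : H × I, (x.1 : Γ) * r x.2 = r i * γ := fun i => hbij.2 (r i * γ)
  choose x hx using hex
  let h : I → H := fun i => (x i).1
  let σ : I → I := fun i => (x i).2
  have hrel : ∀ i, r i * γ = (h i : Γ) * r (σ i) := fun i => (hx i).symm
  have hσinj : Injective σ := by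
    intro i j hij
    apply hr.1
    simp only
    rw [QuotientGroup.eq, inv_inv]
    have : r i * (r j)⁻¹ = (h i : Γ) * (h j : Γ)⁻¹ := by
      have h1 : r i = (h i : Γ) * r (σ i) * γ⁻¹ := by rw [← hrel i]; group
      have h2 : r j = (h j : Γ) * r (σ i) * γ⁻¹ := by rw [hij, ← hrel j]; group
      rw [h1, h2]; group
    rw [this]
    exact H.mul_mem (h i).2 (H.inv_mem (h j).2)
  have hσ : Bijective σ := ⟨hσinj, Finite.injective_iff_surjective.mp hσinj⟩
  rw [Fermat.Agent.ES.LR.TransferReps27.transfer_eq_prod_reps (homMul hH z₀) r hr γ σ h hrel,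
    toAdd_prod, D_eq_sum_reps H r hr hf z₀ (γ • z₀)]
  -- each summand
  have hterm : ∀ i, D H f (r i • z₀) (r i • γ • z₀)
      = (D H f z₀ (r (σ i) • z₀) - D H f z₀ (r i • z₀)) + D H f z₀ (h i • z₀) := by
    intro i
    have e1 : r i • γ • z₀ = h i • (r (σ i) • z₀) := by
      rw [← mul_smul, hrel i, mul_smul, Subgroup.smul_def]
    rw [e1, D_add_path hH (r i • z₀) (r (σ i) • z₀) (h i • r (σ i) • z₀),
      D_basepoint hH z₀ (r (σ i) • z₀) (h i),
      D_add_path hH (r i • z₀) z₀ (r (σ i) • z₀), D_symm hH z₀ (r i • z₀)]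
    ring
  rw [Finset.sum_congr rfl fun i _ => hterm i, Finset.sum_add_distrib, Finset.sum_sub_distrib]
  have hperm : ∑ i, D H f z₀ (r (σ i) • z₀) = ∑ i, D H f z₀ (r i • z₀) :=
    Equiv.sum_comp (Equiv.ofBijective σ hσ) (fun i => D H f z₀ (r i • z₀))
  rw [hperm, sub_self, zero_add]
  rfl

/-- **(PF2), generic form.**  For `H ≤ Γ` of finite index and a `Γ`-tame `f`, the homomorphism
`γ ↦ D Γ f z₀ (γ • z₀)` is the transfer of `h ↦ D H f z₀ (h • z₀)`. -/
theorem D_eq_transfer (H : Subgroup Γ) [H.FiniteIndex] {f : Z → ℤ} (hf : Tame Γ f) (z₀ : Z)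
    (γ : Γ) :
    D Γ f z₀ (γ • z₀)
      = Multiplicative.toAdd (MonoidHom.transfer (homMul (hf.subgroup H) z₀) γ) := by
  classical
  let _ := H.fintypeQuotientOfFiniteIndex
  refine D_eq_transfer_of_reps H (fun q : Γ ⧸ H => (Quotient.out q)⁻¹) ?_ hf z₀ γ
  have : (fun q : Γ ⧸ H => ((((Quotient.out q)⁻¹)⁻¹ : Γ) : Γ ⧸ H)) = id := by
    funext q
    simp only [inv_inv, id]
    exact Quotient.out_eq' q
  rw [this]
  exact bijective_id

end Fermat.Agent.ES.PD.TameTransfer23
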